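import Mathlib
import Fermat.Prelude.Def_GaloisRep_Flat
import Fermat.Prelude.Def_FLTPrelim_Ramification

/-!
# Program FF (S19 + S32), leaf (0)(b): compositum + descent from ONE place to `ℤ_(ℓ)` -- the interface

Owner: helper23.  Namespace `Fermat.Agent.FF`, prefix `ffds`.

`Qb = AlgebraicClosure ℚ`, `G = Qb ≃ₐ[ℚ] Qb`, `A` a valuation subring of `Qb` over `ℓ`,
`I = A.inertiaSubgroupIn ℚ`, `W = ffdsW A = {x ∈ A | x fixed by I}` (the strictly henselian
unramified local base of the chief architect's ruling FF-ARCH #1 (ii)).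

* `ffdsW A`        : the base ring `W` (a subring of `Qb`);
* `ffdsLoc A Gen`  : the local order `W[Gen]` : the subring of `M → Qb` generated by `Gen` and the
  constants of `W` (`= (Algebra.adjoin W Gen).toSubring`, see `ffdsLoc_eq_adjoin`);
* `FfdsInput`      : (CORE-OUT) what the core has to produce at ONE place;
* `FfdsOutput`     : the four hypotheses of helper7's `ffho_main` (an order over `ℤ_(ℓ)`);
* `FfdsAct`        : the action of `G` on `M` is a continuous action by group automorphisms.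
-/

set_option autoImplicit false

noncomputable section

namespace Fermat.Agent.FF

local notation "Qb" => AlgebraicClosure ℚ
local notation "G" => (AlgebraicClosure ℚ) ≃ₐ[ℚ] (AlgebraicClosure ℚ)

/-- the unramified local base `W = {x ∈ A | x fixed by the inertia group}`. -/
def ffdsW (A : ValuationSubring Qb) : Subring Qb where
  carrier := {x | x ∈ A ∧ ∀ σ : G, σ ∈ A.inertiaSubgroupIn ℚ → σ x = x}
  mul_mem' := fun {a b} ha hb => ⟨A.mul_mem _ _ ha.1 hb.1, fun σ hσ => by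
    rw [map_mul, ha.2 σ hσ, hb.2 σ hσ]⟩
  one_mem' := ⟨A.one_mem, fun σ _ => map_one σ⟩
  add_mem' := fun {a b} ha hb => ⟨A.add_mem _ _ ha.1 hb.1, fun σ hσ => by
    rw [map_add, ha.2 σ hσ, hb.2 σ hσ]⟩
  zero_mem' := ⟨A.zero_mem, fun σ _ => map_zero σ⟩
  neg_mem' := fun {a} ha => ⟨A.neg_mem _ ha.1, fun σ hσ => by
    rw [map_neg, ha.2 σ hσ]⟩

theorem mem_ffdsW {A : ValuationSubring Qb} {x : Qb} :
    x ∈ ffdsW A ↔ x ∈ A ∧ ∀ σ : G, σ ∈ A.inertiaSubgroupIn ℚ → σ x = x := Iff.rfl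

variable {M : Type}

/-- the local order `W[Gen]`. -/
def ffdsLoc (A : ValuationSubring Qb) (Gen : Set (M → Qb)) : Subring (M → Qb) :=
  Subring.closure (Gen ∪ {c | ∃ x ∈ ffdsW A, c = fun _ => x})

/-- **INPUT of the descent** = (CORE-OUT): what the core produces at ONE place `A` over `ℓ`: a finite
set `Gen` of `A`-valued, inertia-equivariant functions separating the points of `M`, such that `W[Gen]`
is closed under the comultiplication. -/
structure FfdsInput (ℓ : ℕ) (A : ValuationSubring Qb) [AddCommGroup M] (act : G → M → M)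
    (Gen : Finset (M → Qb)) : Prop where
  liesOver : A.LiesOverPrime ℓ
  val : ∀ φ ∈ Gen, ∀ m, φ m ∈ A
  equiv : ∀ φ ∈ Gen, ∀ σ : G, σ ∈ A.inertiaSubgroupIn ℚ → ∀ m, φ (act σ m) = σ (φ m)
  sep : ∀ m m' : M, m ≠ m' → ∃ φ ∈ Gen, φ m ≠ φ m'
  comul : ∀ φ ∈ Gen, ∃ (k : ℕ) (a b : Fin k → M → Qb),
    (∀ i, a i ∈ ffdsLoc A (Gen : Set (M → Qb)) ∧ b i ∈ ffdsLoc A (Gen : Set (M → Qb))) ∧
      ∀ m m', φ (m + m') = ∑ i, a i m * b i m'

/-- **OUTPUT of the descent** = the hypotheses of `ffho_main` (helper7): a finitely generated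
`ℤ_(ℓ)`-algebra of `G`-equivariant functions, separating points, closed under comultiplication. -/
def FfdsOutput (ℓ : ℕ) [AddCommGroup M] (act : G → M → M) : Prop :=
  ∃ 𝓗 : Subalgebra (GaloisRep.ratLocalizedAt ℓ) (M → Qb),
    𝓗.toSubmodule.FG ∧ (∀ φ ∈ 𝓗, ∀ (σ : G) (m : M), φ (act σ m) = σ (φ m)) ∧
    (∀ m m' : M, m ≠ m' → ∃ φ ∈ 𝓗, φ m ≠ φ m') ∧
    (∀ φ ∈ 𝓗, ∃ (k : ℕ) (a b : Fin k → ↥𝓗), ∀ m m', φ (m + m') = ∑ i, (a i).1 m * (b i).1 m')

/-- the action of `G` on `M` is a continuous action by group automorphisms. -/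
structure FfdsAct [AddCommGroup M] (act : G → M → M) : Prop where
  one : ∀ m, act 1 m = m
  mul : ∀ (σ τ : G) (m : M), act (σ * τ) m = act σ (act τ m)
  add : ∀ (σ : G) (m m' : M), act σ (m + m') = act σ m + act σ m'
  cont : ∃ E : IntermediateField ℚ Qb, FiniteDimensional ℚ E ∧
    ∀ σ : G, σ ∈ E.fixingSubgroup → ∀ m, act σ m = m

end Fermat.Agent.FF
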