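import Mathlib
import Fermat.Agent.FF.Desc.Spec
import Fermat.Agent.S05.Inertia
import Fermat.Agent.S54.Frobenius
import Fermat.Agent.G.S37.Formal

/-!
# Program FF, descent leaf: the semilinear action on functions, and arithmetic of `A`

`(σ · f) m = σ (f (act σ⁻¹ m))`: a ring automorphism of `M → Qb`; `f` is `σ`-equivariant iff
`σ · f = f`.  Owner: helper23.
-/

set_option autoImplicit false
set_option linter.unusedSectionVars false
set_option linter.unusedVariables false

noncomputable section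

namespace Fermat.Agent.FF

open scoped Pointwise

local notation "Qb" => AlgebraicClosure ℚ
local notation "G" => (AlgebraicClosure ℚ) ≃ₐ[ℚ] (AlgebraicClosure ℚ)

variable {M : Type}

/-- the semilinear action of `G` on functions. -/
def ffdsSm (act : G → M → M) (σ : G) : (M → Qb) →+* (M → Qb) where
  toFun f := fun m => σ (f (act σ⁻¹ m))
  map_one' := by funext m; simp
  map_mul' f g := by funext m; simp
  map_zero' := by funext m; simp
  map_add' f g := by funext m; simp

@[simp] theorem ffdsSm_apply (act : G → M → M) (σ : G) (f : M → Qb) (m : M) :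
    ffdsSm act σ f m = σ (f (act σ⁻¹ m)) := rfl

theorem ffdsSm_const (act : G → M → M) (σ : G) (x : Qb) :
    ffdsSm act σ (fun _ => x) = fun _ => σ x := rfl

variable [AddCommGroup M] {act : G → M → M}

theorem FfdsAct.act_inv_cancel (h : FfdsAct act) (σ : G) (m : M) : act σ (act σ⁻¹ m) = m := by
  rw [← h.mul, mul_inv_cancel, h.one]

theorem FfdsAct.inv_act_cancel (h : FfdsAct act) (σ : G) (m : M) : act σ⁻¹ (act σ m) = m := by
  rw [← h.mul, inv_mul_cancel, h.one]

theorem FfdsAct.surjective (h : FfdsAct act) (σ : G) : Function.Surjective (act σ) :=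
  fun m => ⟨act σ⁻¹ m, h.act_inv_cancel σ m⟩

theorem ffdsSm_one (h : FfdsAct act) (f : M → Qb) : ffdsSm act 1 f = f := by
  funext m
  simp [h.one]

theorem ffdsSm_mul (h : FfdsAct act) (σ τ : G) (f : M → Qb) :
    ffdsSm act (σ * τ) f = ffdsSm act σ (ffdsSm act τ f) := by
  funext m
  simp [mul_inv_rev, h.mul]

theorem ffdsSm_inv_cancel (h : FfdsAct act) (σ : G) (f : M → Qb) :
    ffdsSm act σ (ffdsSm act σ⁻¹ f) = f := by
  rw [← ffdsSm_mul h, mul_inv_cancel, ffdsSm_one h]

theorem ffdsSm_cancel_inv (h : FfdsAct act) (σ : G) (f : M → Qb) :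
    ffdsSm act σ⁻¹ (ffdsSm act σ f) = f := by
  rw [← ffdsSm_mul h, inv_mul_cancel, ffdsSm_one h]

theorem ffdsSm_injective (h : FfdsAct act) (σ : G) : Function.Injective (ffdsSm act σ) := by
  intro f g hfg
  rw [← ffdsSm_cancel_inv h σ f, hfg, ffdsSm_cancel_inv h σ g]

/-- `σ · f = f` iff `f` is `σ`-equivariant. -/
theorem ffdsSm_eq_self_iff (h : FfdsAct act) (σ : G) (f : M → Qb) :
    ffdsSm act σ f = f ↔ ∀ m, f (act σ m) = σ (f m) := by
  constructor
  · intro hf m
    have := congrFun hf (act σ m)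
    rw [ffdsSm_apply, h.inv_act_cancel] at this
    exact this.symm
  · intro hf
    funext m
    rw [ffdsSm_apply, ← hf, h.act_inv_cancel]

/-- the subring of functions fixed by a set of Galois elements. -/
def ffdsFix (act : G → M → M) (S : Set G) : Subring (M → Qb) where
  carrier := {f | ∀ σ ∈ S, ffdsSm act σ f = f}
  mul_mem' := fun {a b} ha hb σ hσ => by rw [map_mul, ha σ hσ, hb σ hσ]
  one_mem' := fun σ _ => map_one _
  add_mem' := fun {a b} ha hb σ hσ => by rw [map_add, ha σ hσ, hb σ hσ]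
  zero_mem' := fun σ _ => map_zero _
  neg_mem' := fun {a} ha σ hσ => by rw [map_neg, ha σ hσ]

theorem mem_ffdsFix {S : Set G} {f : M → Qb} :
    f ∈ ffdsFix act S ↔ ∀ σ ∈ S, ffdsSm act σ f = f := Iff.rfl

theorem mem_ffdsFix_iff (h : FfdsAct act) {S : Set G} {f : M → Qb} :
    f ∈ ffdsFix act S ↔ ∀ σ ∈ S, ∀ m, f (act σ m) = σ (f m) := by
  rw [mem_ffdsFix]
  exact forall₂_congr fun σ _ => ffdsSm_eq_self_iff h σ f

/-- conjugation: if `f` is fixed by `S` and `δ⁻¹ σ δ ∈ S` then `δ · f` is fixed by `σ`. -/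
theorem ffdsSm_conj_fixed (h : FfdsAct act) {S : Set G} {f : M → Qb} (hf : f ∈ ffdsFix act S)
    (δ σ : G) (hσ : δ⁻¹ * σ * δ ∈ S) : ffdsSm act σ (ffdsSm act δ f) = ffdsSm act δ f := by
  have h1 : σ * δ = δ * (δ⁻¹ * σ * δ) := by group
  rw [← ffdsSm_mul h, h1, ffdsSm_mul h, hf _ hσ]

/-- the subring of `A`-valued functions. -/
def ffdsVal (A : ValuationSubring Qb) : Subring (M → Qb) where
  carrier := {f | ∀ m, f m ∈ A}
  mul_mem' := fun {a b} ha hb m => A.mul_mem _ _ (ha m) (hb m)
  one_mem' := fun _ => A.one_mem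
  add_mem' := fun {a b} ha hb m => A.add_mem _ _ (ha m) (hb m)
  zero_mem' := fun _ => A.zero_mem
  neg_mem' := fun {a} ha m => A.neg_mem _ (ha m)

theorem mem_ffdsVal {A : ValuationSubring Qb} {f : M → Qb} :
    f ∈ ffdsVal (M := M) A ↔ ∀ m, f m ∈ A := Iff.rfl

/-! ### the decomposition group preserves `A` -/

theorem ffds_decomp_mem {A : ValuationSubring Qb} {δ : G} (hδ : δ ∈ A.decompositionSubgroup ℚ)
    {x : Qb} (hx : x ∈ A) : δ x ∈ A := by
  have hstab : δ • A = A := hδ
  have := ValuationSubring.smul_mem_pointwise_smul δ x A hx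
  rw [hstab] at this
  exact this

theorem ffdsSm_mem_val {A : ValuationSubring Qb} {δ : G} (hδ : δ ∈ A.decompositionSubgroup ℚ)
    {f : M → Qb} (hf : f ∈ ffdsVal (M := M) A) : ffdsSm act δ f ∈ ffdsVal (M := M) A :=
  fun m => ffds_decomp_mem hδ (hf _)

theorem ffds_inertia_le_decomp {A : ValuationSubring Qb} {σ : G}
    (hσ : σ ∈ A.inertiaSubgroupIn ℚ) : σ ∈ A.decompositionSubgroup ℚ := by
  obtain ⟨τ, _, rfl⟩ := hσ
  exact τ.2

/-- the inertia group is normal in the decomposition group. -/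
theorem ffds_conj_inertia {A : ValuationSubring Qb} {σ δ : G}
    (hσ : σ ∈ A.inertiaSubgroupIn ℚ) (hδ : δ ∈ A.decompositionSubgroup ℚ) :
    δ⁻¹ * σ * δ ∈ A.inertiaSubgroupIn ℚ := by
  have := Fermat.Agent.G37.g37_conj_mem_inertia A hσ (inv_mem hδ)
  rwa [inv_inv] at this

/-- `D`-conjugates of inertia-invariant functions are inertia-invariant. -/
theorem ffdsSm_mem_fix_inertia (h : FfdsAct act) {A : ValuationSubring Qb} {δ : G}
    (hδ : δ ∈ A.decompositionSubgroup ℚ) {f : M → Qb}
    (hf : f ∈ ffdsFix act (A.inertiaSubgroupIn ℚ : Set G)) :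
    ffdsSm act δ f ∈ ffdsFix act (A.inertiaSubgroupIn ℚ : Set G) :=
  fun σ hσ => ffdsSm_conj_fixed h hf δ σ (ffds_conj_inertia hσ hδ)

/-- `D`-conjugates of `D`-invariant functions... more generally: conjugation by an element of a
subgroup preserves the fixed functions of that subgroup. -/
theorem ffdsSm_mem_fix_subgroup (h : FfdsAct act) (S : Subgroup G) {δ : G} (hδ : δ ∈ S)
    {f : M → Qb} (hf : f ∈ ffdsFix act (S : Set G)) : ffdsSm act δ f = f := hf δ hδ

end Fermat.Agent.FF
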