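import Mathlib
import Fermat.Prelude.Def_GaloisRep_Flat
import Fermat.Prelude.Def_FLTPrelim_Ramification
import Fermat.Agent.S05.Inertia
import Fermat.Agent.S54.Frobenius

/-!
# Program FF, descent leaf: arithmetic of a valuation subring `A` of `ℚ̄` over `ℓ`

* integers prime to `ℓ` are units of `A`; `ℚ ∩ A = ℤ_(ℓ)`;
* bounded denominators: `ℓ^C σ(y) ∈ A` for all `σ`, `C = C(y)`;
* roots of unity of order prime to `ℓ`: differences of distinct ones are units of `A`.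
Owner: helper23.
-/

set_option autoImplicit false
set_option linter.unusedSectionVars false
set_option linter.unusedVariables false

noncomputable section

namespace Fermat.Agent.FF

local notation "Qb" => AlgebraicClosure ℚ
local notation "G" => (AlgebraicClosure ℚ) ≃ₐ[ℚ] (AlgebraicClosure ℚ)

local instance ffdsIsAlgebraic : Algebra.IsAlgebraic ℚ (AlgebraicClosure ℚ) :=
  AlgebraicClosure.isAlgebraic ℚ

variable {ℓ : ℕ} {A : ValuationSubring Qb}

theorem ffds_natCast_inv_mem (hℓ : ℓ.Prime) (hA : A.LiesOverPrime ℓ) {n : ℕ} (hn : ¬ ℓ ∣ n) :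
    ((n : Qb))⁻¹ ∈ A := by
  have h1 : A.valuation ((n : ℤ) : Qb) = 1 :=
    (Fermat.Agent.S05.valuation_intCast_eq_one_iff A hℓ hA (n : ℤ)).mpr
      (fun h => hn (Int.natCast_dvd_natCast.mp h))
  rw [← A.valuation_le_one_iff, map_inv₀]
  have h2 : A.valuation (n : Qb) = 1 := by simpa using h1
  rw [h2, inv_one]

theorem ffds_prime_mem (A : ValuationSubring Qb) (n : ℕ) : (n : Qb) ∈ A := natCast_mem A n

/-- integral elements lie in `A`. -/
theorem ffds_integral_mem (A : ValuationSubring Qb) {b : Qb} (hb : IsIntegral ℤ b) : b ∈ A :=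
  Fermat.Agent.S54.mem_valuationSubring_of_isIntegral A b hb

/-- bounded denominators, uniformly over all Galois conjugates. -/
theorem ffds_exists_pow_mul_mem (hℓ : ℓ.Prime) (hA : A.LiesOverPrime ℓ) (y : Qb) :
    ∃ C : ℕ, ∀ σ : G, (ℓ : Qb) ^ C * σ y ∈ A := by
  have halg : IsAlgebraic ℤ y :=
    (IsFractionRing.isAlgebraic_iff ℤ ℚ Qb).mpr (Algebra.IsAlgebraic.isAlgebraic y)
  obtain ⟨d, hd0, hd⟩ := halg.exists_integral_multiple
  have hdn : d.natAbs ≠ 0 := Int.natAbs_ne_zero.mpr hd0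
  obtain ⟨C, d', hd', hdd'⟩ := Nat.exists_eq_pow_mul_and_not_dvd hdn ℓ hℓ.ne_one
  refine ⟨C, fun σ => ?_⟩
  -- `d.natAbs * σ y` is integral
  have h1 : IsIntegral ℤ ((d.natAbs : Qb) * σ y) := by
    have h2 : IsIntegral ℤ (σ (d • y)) := hd.map σ
    have h3 : σ (d • y) = (d : Qb) * σ y := by
      rw [zsmul_eq_mul, map_mul, map_intCast]
    rw [h3] at h2
    have key : ∃ u : ℤ, (d.natAbs : ℤ) = u * d := by
      rcases Int.natAbs_eq d with h | h
      · exact ⟨1, by rw [one_mul]; exact h.symm⟩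
      · exact ⟨-1, by rw [neg_one_mul]; omega⟩
    obtain ⟨u, hu⟩ := key
    have h4 : (d.natAbs : Qb) * σ y = ((u : ℤ) : Qb) * ((d : Qb) * σ y) := by
      have := congrArg (fun t : ℤ => (t : Qb)) hu
      simp only [Int.cast_natCast, Int.cast_mul] at this
      rw [this]
      ring
    rw [h4]
    exact IsIntegral.mul isIntegral_algebraMap h2
  have h6 := ffds_integral_mem A h1
  have h7 := ffds_natCast_inv_mem hℓ hA hd'
  have h8 : (ℓ : Qb) ^ C * σ y = ((d' : Qb))⁻¹ * ((d.natAbs : Qb) * σ y) := by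
    have hd'0 : (d' : Qb) ≠ 0 := by
      intro h0
      have : d' = 0 := by exact_mod_cast h0
      exact hd' (this ▸ dvd_zero _)
    rw [hdd']
    push_cast
    field_simp
  rw [h8]
  exact A.mul_mem _ _ h7 h6

/-- bounded denominators for a finite family. -/
theorem ffds_exists_pow_mul_mem_finite (hℓ : ℓ.Prime) (hA : A.LiesOverPrime ℓ) {ι : Type*}
    [Finite ι] (y : ι → Qb) : ∃ C : ℕ, ∀ i, ∀ σ : G, (ℓ : Qb) ^ C * σ (y i) ∈ A := by
  classical
  have := Fintype.ofFinite ι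
  choose C hC using fun i => ffds_exists_pow_mul_mem hℓ hA (y i)
  refine ⟨Finset.univ.sup C, fun i σ => ?_⟩
  have hle : C i ≤ Finset.univ.sup C := Finset.le_sup (Finset.mem_univ i)
  obtain ⟨k, hk⟩ := Nat.exists_eq_add_of_le hle
  rw [hk, pow_add, mul_comm ((ℓ : Qb) ^ C i), mul_assoc]
  exact A.mul_mem _ _ (pow_mem (natCast_mem A ℓ) k) (hC i σ)

/-- `ℤ_(ℓ) ⊂ A`. -/
theorem ffds_ratLoc_mem (hℓ : ℓ.Prime) (hA : A.LiesOverPrime ℓ) {q : ℚ}
    (hq : q ∈ GaloisRep.ratLocalizedAt ℓ) : algebraMap ℚ Qb q ∈ A := by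
  have hq' : ¬ ℓ ∣ q.den := by
    have h1 : q.den.Coprime ℓ := hq
    rw [Nat.coprime_comm, hℓ.coprime_iff_not_dvd] at h1
    exact h1
  have h2 : algebraMap ℚ Qb q = (q.num : Qb) * ((q.den : Qb))⁻¹ := by
    conv_lhs => rw [← Rat.num_div_den q]
    rw [map_div₀, div_eq_mul_inv]
    simp
  rw [h2]
  exact A.mul_mem _ _ (intCast_mem A _) (ffds_natCast_inv_mem hℓ hA hq')

/-- `ℚ ∩ A ⊂ ℤ_(ℓ)`. -/
theorem ffds_mem_ratLoc (hℓ : ℓ.Prime) (hA : A.LiesOverPrime ℓ) {q : ℚ}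
    (hq : algebraMap ℚ Qb q ∈ A) : q ∈ GaloisRep.ratLocalizedAt ℓ := by
  show q.den.Coprime ℓ
  rw [Nat.coprime_comm, hℓ.coprime_iff_not_dvd]
  intro hdvd
  -- then `ℓ ∤ num`, so `num` is a unit and `den` is a non-unit
  have hnum : ¬ (ℓ : ℤ) ∣ q.num := by
    intro h
    have h1 : ℓ ∣ q.num.natAbs := Int.natCast_dvd.mp h
    have h2 : ℓ ∣ Nat.gcd q.num.natAbs q.den := Nat.dvd_gcd h1 hdvd
    have h2' : Nat.gcd q.num.natAbs q.den = 1 := q.reduced
    rw [h2'] at h2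
    exact hℓ.ne_one (Nat.dvd_one.mp h2)
  have h3 : A.valuation ((q.num : ℤ) : Qb) = 1 :=
    (Fermat.Agent.S05.valuation_intCast_eq_one_iff A hℓ hA q.num).mpr hnum
  have h4 : A.valuation ((q.den : ℤ) : Qb) < 1 := by
    have h5 := Fermat.Agent.S05.valuation_intCast_le_one A (q.den : ℤ)
    rcases lt_or_eq_of_le h5 with h | h
    · exact h
    · exfalso
      exact (Fermat.Agent.S05.valuation_intCast_eq_one_iff A hℓ hA (q.den : ℤ)).mp h
        (Int.natCast_dvd_natCast.mpr hdvd)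
  have h6 : algebraMap ℚ Qb q * ((q.den : ℤ) : Qb) = ((q.num : ℤ) : Qb) := by
    have := Rat.mul_den_eq_num q
    have h7 := congrArg (algebraMap ℚ Qb) this
    rw [map_mul] at h7
    simpa using h7
  have h8 := congrArg A.valuation h6
  rw [map_mul, h3] at h8
  have h9 : A.valuation (algebraMap ℚ Qb q) ≤ 1 := (A.valuation_le_one_iff _).mpr hq
  have h10 : A.valuation (algebraMap ℚ Qb q) * A.valuation ((q.den : ℤ) : Qb) < 1 := by
    calc A.valuation (algebraMap ℚ Qb q) * A.valuation ((q.den : ℤ) : Qb)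
        ≤ 1 * A.valuation ((q.den : ℤ) : Qb) := by gcongr
      _ < 1 := by simpa using h4
  rw [h8] at h10
  exact lt_irrefl _ h10

/-! ### roots of unity -/

theorem ffds_root_mem (A : ValuationSubring Qb) {ξ : Qb} {n : ℕ} (hn : n ≠ 0) (h : ξ ^ n = 1) :
    ξ ∈ A := by
  rcases A.mem_or_inv_mem ξ with h1 | h1
  · exact h1
  · obtain ⟨k, rfl⟩ := Nat.exists_eq_succ_of_ne_zero hn
    have h2 : ξ = (ξ⁻¹) ^ k := by
      have hξ : ξ ≠ 0 := by
        rintro rfl
        simp at h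
      rw [inv_pow]
      apply eq_inv_of_mul_eq_one_left
      rw [← pow_succ']
      exact h
    rw [h2]
    exact pow_mem h1 k

/-- `1 - ξ` is a unit of `A` for a root of unity `ξ ≠ 1` of order prime to `ℓ`. -/
theorem ffds_one_sub_root_inv_mem (hℓ : ℓ.Prime) (hA : A.LiesOverPrime ℓ) {ξ : Qb} {n : ℕ}
    (hn : ¬ ℓ ∣ n) (h : ξ ^ n = 1) (h1 : ξ ≠ 1) : ((1 : Qb) - ξ)⁻¹ ∈ A := by
  have hn0 : n ≠ 0 := by
    rintro rfl
    exact hn (dvd_zero _)
  have hξA : ξ ∈ A := ffds_root_mem A hn0 h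
  -- in the ring `A`: `(1 - ξ) ∣ Φ(1) - Φ(ξ) = n`
  let ξA : A := ⟨ξ, hξA⟩
  let Φ : Polynomial A := ∑ i ∈ Finset.range n, Polynomial.X ^ i
  have hΦ1 : Φ.eval 1 = (n : A) := by
    simp [Φ, Polynomial.eval_finsetSum]
  have hΦξ : Φ.eval ξA = 0 := by
    have h2 : Φ.eval ξA = ∑ i ∈ Finset.range n, ξA ^ i := by
      simp [Φ, Polynomial.eval_finsetSum]
    have h3 : (∑ i ∈ Finset.range n, ξA ^ i) * (ξA - 1) = 0 := by
      rw [geom_sum_mul]
      apply Subtype.ext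
      simp [ξA, h]
    have h4 : ξA - 1 ≠ 0 := by
      intro h0
      apply h1
      have := congrArg (fun a : A => (a : Qb)) h0
      simpa [ξA, sub_eq_zero] using this
    rw [h2]
    exact (mul_eq_zero.mp h3).resolve_right h4
  have hdvd : (1 - ξA) ∣ (n : A) := by
    have := Polynomial.sub_dvd_eval_sub (1 : A) ξA Φ
    rwa [hΦ1, hΦξ, sub_zero] at this
  obtain ⟨c, hc⟩ := hdvd
  have hninv := ffds_natCast_inv_mem hℓ hA hn
  have hc' : (n : Qb) = (1 - ξ) * (c : Qb) := by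
    have := congrArg (fun a : A => (a : Qb)) hc
    simpa [ξA] using this
  have hn0' : (n : Qb) ≠ 0 := by exact_mod_cast hn0
  have h5 : ((1 : Qb) - ξ)⁻¹ = (c : Qb) * ((n : Qb))⁻¹ := by
    have h6 : (1 : Qb) - ξ ≠ 0 := sub_ne_zero.mpr (Ne.symm h1)
    have hc0 : (c : Qb) ≠ 0 := by
      intro h0
      rw [h0, mul_zero] at hc'
      exact hn0' hc'
    rw [hc']
    field_simp
  rw [h5]
  exact A.mul_mem _ _ c.2 hninv

/-- differences of distinct roots of unity of order prime to `ℓ` are units of `A`. -/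
theorem ffds_root_sub_inv_mem (hℓ : ℓ.Prime) (hA : A.LiesOverPrime ℓ) {z z' : Qb} {n : ℕ}
    (hn : ¬ ℓ ∣ n) (hz : z ^ n = 1) (hz' : z' ^ n = 1) (hne : z ≠ z') : (z - z')⁻¹ ∈ A := by
  have hn0 : n ≠ 0 := by
    rintro rfl
    exact hn (dvd_zero _)
  have hz0 : z ≠ 0 := by
    rintro rfl
    simp [hn0] at hz
  have h1 : (z' / z) ^ n = 1 := by rw [div_pow, hz, hz', div_one]
  have h2 : z' / z ≠ 1 := by
    intro h
    apply hne
    rw [div_eq_one_iff_eq hz0] at h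
    exact h.symm
  have h3 := ffds_one_sub_root_inv_mem hℓ hA hn h1 h2
  have h4 : (z - z')⁻¹ = (z⁻¹) * ((1 : Qb) - z' / z)⁻¹ := by
    have : z - z' ≠ 0 := sub_ne_zero.mpr hne
    have h5 : (1 : Qb) - z' / z ≠ 0 := sub_ne_zero.mpr (Ne.symm h2)
    field_simp
  rw [h4]
  have hzinv : z⁻¹ ∈ A := by
    apply ffds_root_mem A hn0
    rw [inv_pow, hz, inv_one]
  exact A.mul_mem _ _ hzinv h3

end Fermat.Agent.FF
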