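import Mathlib
import Fermat.Agent.FF.Desc.Act
import Fermat.Agent.FF.Desc.Val

/-!
# Program FF, descent leaf: `A`-algebras of functions generated by finitely many `A`-valued functions

`Algebra.adjoin ↥A S ⊂ (M → Qb)`: values in `A`, finitely generated as a module (integrality),
stability under the decomposition group, closedness under comultiplication (`FfdsCom`), finiteness of
Galois orbits of functions, fields of definition, the conductor (`ℓ^N₀ · A^M ⊂ A[S]` for separating `S`).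
Owner: helper23.
-/

set_option autoImplicit false
set_option linter.unusedSectionVars false
set_option linter.unusedVariables false

noncomputable section

namespace Fermat.Agent.FF

open scoped Pointwise

local notation "Qb" => AlgebraicClosure ℚ
local notation "G" => (AlgebraicClosure ℚ) ≃ₐ[ℚ] (AlgebraicClosure ℚ)

local instance ffdsIsAlgebraic' : Algebra.IsAlgebraic ℚ (AlgebraicClosure ℚ) :=
  AlgebraicClosure.isAlgebraic ℚ

variable {M : Type} {A : ValuationSubring Qb}

/-! ### constants -/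

theorem ffds_algebraMap_apply (c : A) (m : M) : algebraMap (↥A) (M → Qb) c m = (c : Qb) := rfl

theorem ffds_smul_apply (c : A) (f : M → Qb) (m : M) : (c • f) m = (c : Qb) * f m := by
  rw [Pi.smul_apply, Algebra.smul_def]
  rfl

theorem ffds_const_mem (B : Subalgebra (↥A) (M → Qb)) {x : Qb} (hx : x ∈ A) :
    (fun _ : M => x) ∈ B := B.algebraMap_mem ⟨x, hx⟩

theorem ffds_const_mul_mem (B : Subalgebra (↥A) (M → Qb)) {x : Qb} (hx : x ∈ A) {f : M → Qb}
    (hf : f ∈ B) : (fun m => x * f m) ∈ B := B.mul_mem (ffds_const_mem B hx) hf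

/-! ### values in `A`, integrality, finite generation -/

theorem ffds_adjoin_val {S : Set (M → Qb)} (hS : ∀ s ∈ S, ∀ m, s m ∈ A) :
    ∀ f ∈ Algebra.adjoin (↥A) S, ∀ m, f m ∈ A := by
  intro f hf
  induction hf using Algebra.adjoin_induction with
  | mem x hx => exact hS x hx
  | algebraMap r => exact fun m => r.2
  | add x y _ _ hx hy => exact fun m => A.add_mem _ _ (hx m) (hy m)
  | mul x y _ _ hx hy => exact fun m => A.mul_mem _ _ (hx m) (hy m)

theorem ffds_isIntegral_of_val [Finite M] {f : M → Qb} (hf : ∀ m, f m ∈ A) :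
    IsIntegral (↥A) f := by
  classical
  have := Fintype.ofFinite M
  let P : Polynomial (↥A) := ∏ m : M, (Polynomial.X - Polynomial.C (⟨f m, hf m⟩ : A))
  refine ⟨P, Polynomial.monic_prod_of_monic _ _ (fun m _ => Polynomial.monic_X_sub_C _), ?_⟩
  funext m₀
  have h1 := Polynomial.hom_eval₂ P (algebraMap (↥A) (M → Qb))
    (Pi.evalRingHom (fun _ : M => Qb) m₀) f
  rw [Pi.evalRingHom_apply] at h1
  rw [h1, Pi.zero_apply, Polynomial.eval₂_finsetProd]
  apply Finset.prod_eq_zero (Finset.mem_univ m₀)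
  simp only [Polynomial.eval₂_sub, Polynomial.eval₂_X, Polynomial.eval₂_C, Pi.evalRingHom_apply]
  rw [RingHom.comp_apply]
  simp

theorem ffds_adjoin_fg [Finite M] {S : Set (M → Qb)} (hfin : S.Finite)
    (hS : ∀ s ∈ S, ∀ m, s m ∈ A) : (Algebra.adjoin (↥A) S).toSubmodule.FG :=
  fg_adjoin_of_finite hfin fun s hs => ffds_isIntegral_of_val (hS s hs)

/-! ### stability under the decomposition group -/

variable [AddCommGroup M] {act : G → M → M}

theorem ffds_adjoin_stable {S : Set (M → Qb)} {δ : G} (hδ : δ ∈ A.decompositionSubgroup ℚ)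
    (hS : ∀ s ∈ S, ffdsSm act δ s ∈ Algebra.adjoin (↥A) S) :
    ∀ f ∈ Algebra.adjoin (↥A) S, ffdsSm act δ f ∈ Algebra.adjoin (↥A) S := by
  intro f hf
  induction hf using Algebra.adjoin_induction with
  | mem x hx => exact hS x hx
  | algebraMap r =>
    have h1 : ffdsSm act δ (algebraMap (↥A) (M → Qb) r) =
        algebraMap (↥A) (M → Qb) ⟨δ (r : Qb), ffds_decomp_mem hδ r.2⟩ := rfl
    rw [h1]
    exact Subalgebra.algebraMap_mem _ _
  | add x y _ _ hx hy => rw [map_add]; exact add_mem hx hy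
  | mul x y _ _ hx hy => rw [map_mul]; exact mul_mem hx hy

/-- the monomials span; so an algebra generated by `S`-fixed functions is spanned by fixed ones. -/
theorem ffds_adjoin_le_span_fix {S : Set (M → Qb)} {T : Set G} (hS : ∀ s ∈ S, s ∈ ffdsFix act T) :
    (Algebra.adjoin (↥A) S).toSubmodule ≤
      Submodule.span (↥A) {ψ | ψ ∈ Algebra.adjoin (↥A) S ∧ ψ ∈ ffdsFix act T} := by
  rw [Algebra.adjoin_eq_span]
  apply Submodule.span_mono
  intro ψ hψ
  refine ⟨?_, ?_⟩
  · have h1 : Submonoid.closure S ≤ (Algebra.adjoin (↥A) S).toSubmonoid :=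
      Submonoid.closure_le.mpr Algebra.subset_adjoin
    exact h1 hψ
  · have h1 : Submonoid.closure S ≤ (ffdsFix act T).toSubmonoid :=
      Submonoid.closure_le.mpr hS
    exact h1 hψ

/-! ### closedness under the comultiplication -/

/-- `Δ φ` lies in the image of `B ⊗ B`. -/
def FfdsCom (B : Set (M → Qb)) (φ : M → Qb) : Prop :=
  ∃ (ι : Type) (_ : Fintype ι) (a b : ι → M → Qb), (∀ i, a i ∈ B) ∧ (∀ i, b i ∈ B) ∧
    ∀ m m', φ (m + m') = ∑ i, a i m * b i m'

theorem FfdsCom.mono {B B' : Set (M → Qb)} (hBB' : B ⊆ B') {φ : M → Qb} (h : FfdsCom B φ) :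
    FfdsCom B' φ := by
  obtain ⟨ι, _, a, b, ha, hb, hab⟩ := h
  exact ⟨ι, _, a, b, fun i => hBB' (ha i), fun i => hBB' (hb i), hab⟩

theorem FfdsCom.of_fin {B : Set (M → Qb)} {φ : M → Qb} {k : ℕ} (a b : Fin k → M → Qb)
    (ha : ∀ i, a i ∈ B) (hb : ∀ i, b i ∈ B) (hab : ∀ m m', φ (m + m') = ∑ i, a i m * b i m') :
    FfdsCom B φ := ⟨Fin k, inferInstance, a, b, ha, hb, hab⟩

theorem FfdsCom.to_fin {B : Set (M → Qb)} {φ : M → Qb} (h : FfdsCom B φ) :
    ∃ (k : ℕ) (a b : Fin k → M → Qb), (∀ i, a i ∈ B) ∧ (∀ i, b i ∈ B) ∧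
      ∀ m m', φ (m + m') = ∑ i, a i m * b i m' := by
  obtain ⟨ι, _, a, b, ha, hb, hab⟩ := h
  let e := Fintype.equivFin ι
  refine ⟨Fintype.card ι, fun i => a (e.symm i), fun i => b (e.symm i), fun i => ha _,
    fun i => hb _, fun m m' => ?_⟩
  rw [hab]
  exact (Equiv.sum_comp e.symm (fun i => a i m * b i m')).symm

theorem FfdsCom.const (B : Subalgebra (↥A) (M → Qb)) (r : A) :
    FfdsCom (B : Set (M → Qb)) (algebraMap (↥A) (M → Qb) r) :=
  ⟨Unit, inferInstance, fun _ => algebraMap (↥A) (M → Qb) r, fun _ => 1,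
    fun _ => B.algebraMap_mem r, fun _ => B.one_mem, fun m m' => by simp⟩

theorem FfdsCom.add {B : Set (M → Qb)} {φ φ' : M → Qb} (h : FfdsCom B φ) (h' : FfdsCom B φ') :
    FfdsCom B (φ + φ') := by
  obtain ⟨ι, _, a, b, ha, hb, hab⟩ := h
  obtain ⟨ι', _, a', b', ha', hb', hab'⟩ := h'
  refine ⟨ι ⊕ ι', inferInstance, Sum.elim a a', Sum.elim b b', ?_, ?_, fun m m' => ?_⟩
  · rintro (i | i)
    · exact ha i
    · exact ha' i
  · rintro (i | i)
    · exact hb i
    · exact hb' i
  · rw [Pi.add_apply, hab, hab', Fintype.sum_sum_type]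
    simp

theorem FfdsCom.mul (B : Subalgebra (↥A) (M → Qb)) {φ φ' : M → Qb}
    (h : FfdsCom (B : Set (M → Qb)) φ) (h' : FfdsCom (B : Set (M → Qb)) φ') :
    FfdsCom (B : Set (M → Qb)) (φ * φ') := by
  obtain ⟨ι, _, a, b, ha, hb, hab⟩ := h
  obtain ⟨ι', _, a', b', ha', hb', hab'⟩ := h'
  refine ⟨ι × ι', inferInstance, fun p => a p.1 * a' p.2, fun p => b p.1 * b' p.2,
    fun p => B.mul_mem (ha _) (ha' _), fun p => B.mul_mem (hb _) (hb' _), fun m m' => ?_⟩
  rw [Pi.mul_apply, hab, hab', Finset.sum_mul_sum, Fintype.sum_prod_type]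
  refine Finset.sum_congr rfl fun i _ => Finset.sum_congr rfl fun j _ => ?_
  simp only [Pi.mul_apply]
  ring

/-- the comultiplication commutes with the semilinear action. -/
theorem FfdsCom.sm (hact : FfdsAct act) {B : Set (M → Qb)} {σ : G}
    (hB : ∀ f ∈ B, ffdsSm act σ f ∈ B) {φ : M → Qb} (h : FfdsCom B φ) :
    FfdsCom B (ffdsSm act σ φ) := by
  obtain ⟨ι, _, a, b, ha, hb, hab⟩ := h
  refine ⟨ι, inferInstance, fun i => ffdsSm act σ (a i), fun i => ffdsSm act σ (b i),
    fun i => hB _ (ha i), fun i => hB _ (hb i), fun m m' => ?_⟩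
  simp only [ffdsSm_apply]
  rw [hact.add, hab, map_sum]
  refine Finset.sum_congr rfl fun i _ => ?_
  rw [map_mul]

/-- if the generators are `Δ`-closed, so is the whole algebra. -/
theorem ffds_adjoin_com {S : Set (M → Qb)}
    (hS : ∀ s ∈ S, FfdsCom (Algebra.adjoin (↥A) S : Set (M → Qb)) s) :
    ∀ f ∈ Algebra.adjoin (↥A) S, FfdsCom (Algebra.adjoin (↥A) S : Set (M → Qb)) f := by
  intro f hf
  induction hf using Algebra.adjoin_induction with
  | mem x hx => exact hS x hx
  | algebraMap r => exact FfdsCom.const _ r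
  | add x y _ _ hx hy => exact hx.add hy
  | mul x y _ _ hx hy => exact FfdsCom.mul _ hx hy

/-! ### finiteness of Galois orbits of functions -/

theorem ffds_orbit_finite [Finite M] (f : M → Qb) :
    (Set.range fun σ : G => ffdsSm act σ f).Finite := by
  classical
  have := Fintype.ofFinite M
  let R : Set Qb := ⋃ m : M, (minpoly ℚ (f m)).rootSet Qb
  have hR : R.Finite := Set.finite_iUnion fun m => Polynomial.rootSet_finite _ _
  have hpi : (Set.univ.pi fun _ : M => R).Finite := Set.Finite.pi fun _ => hR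
  refine hpi.subset ?_
  rintro _ ⟨σ, rfl⟩ m _
  simp only [ffdsSm_apply]
  refine Set.mem_iUnion.mpr ⟨act σ⁻¹ m, ?_⟩
  have hint : IsIntegral ℚ (f (act σ⁻¹ m)) := Algebra.IsIntegral.isIntegral _
  rw [Polynomial.mem_rootSet]
  refine ⟨minpoly.ne_zero hint, ?_⟩
  have h1 := Polynomial.aeval_algHom_apply (σ : Qb →ₐ[ℚ] Qb) (f (act σ⁻¹ m)) (minpoly ℚ (f (act σ⁻¹ m)))
  rw [minpoly.aeval, map_zero] at h1
  exact h1

/-! ### a finite extension over which a function is defined -/

theorem ffds_exists_field [Finite M] (hact : FfdsAct act) (ψ : M → Qb) :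
    ∃ E : IntermediateField ℚ Qb, FiniteDimensional ℚ E ∧
      (∀ γ : G, γ ∈ E.fixingSubgroup → ∀ m, act γ m = m) ∧ ∀ m, ψ m ∈ E := by
  classical
  obtain ⟨E₀, hE₀, hfix⟩ := hact.cont
  have hfin : (Set.range ψ).Finite := Set.finite_range ψ
  have : Finite (Set.range ψ) := hfin
  have hE₁ : FiniteDimensional ℚ (IntermediateField.adjoin ℚ (Set.range ψ)) :=
    IntermediateField.finiteDimensional_adjoin fun x _ => Algebra.IsIntegral.isIntegral x
  refine ⟨E₀ ⊔ IntermediateField.adjoin ℚ (Set.range ψ), IntermediateField.finiteDimensional_sup _ _,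
    fun γ hγ m => hfix γ ?_ m, fun m => ?_⟩
  · exact (IntermediateField.fixingSubgroup_antitone le_sup_left) hγ
  · exact (le_sup_right : IntermediateField.adjoin ℚ (Set.range ψ) ≤ _)
      (IntermediateField.subset_adjoin ℚ _ (Set.mem_range_self m))

/-- elements of the fixing subgroup of such a field fix the function. -/
theorem ffdsSm_eq_of_fixing (hact : FfdsAct act) {E : IntermediateField ℚ Qb} {ψ : M → Qb}
    (hM : ∀ γ : G, γ ∈ E.fixingSubgroup → ∀ m, act γ m = m) (hψ : ∀ m, ψ m ∈ E)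
    {γ : G} (hγ : γ ∈ E.fixingSubgroup) : ffdsSm act γ ψ = ψ := by
  funext m
  rw [ffdsSm_apply, hM _ (inv_mem hγ)]
  exact (IntermediateField.mem_fixingSubgroup_iff E γ).mp hγ _ (hψ m)

end Fermat.Agent.FF
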