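import Mathlib
import Fermat.Agent.FF.Desc.Act
import Fermat.Agent.FF.Desc.Alg

/-!
# Program FF, descent leaf: the three module-level steps, as `Prop`s

`𝔅` is an `A`-subalgebra of `M → Qb` (`A` the valuation subring, acting by constants),
`ffdsSm act σ` the semilinear action `(σ · f) m = σ (f (act σ⁻¹ m))`,
`ffdsFix act S` the subring of functions fixed by all `σ ∈ S` (i.e. `S`-equivariant functions),
`D = A.decompositionSubgroup ℚ`, `I = A.inertiaSubgroupIn ℚ`.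

* `FfdsVdmStep`   (unramified descent `I → D`; from `FfdsLevelSpec` + `FfdsVdmSpec`);
* `FfdsDenseStep` (weak approximation `D → G` modulo `ℓ`; from `FfdsCrtSpec`);
* `FfdsFinalStep` (from `𝔅 = A · 𝔅^G` to the output order over `ℤ_(ℓ)`).
Owner of the literals: helper23.
-/

set_option autoImplicit false

noncomputable section

namespace Fermat.Agent.FF

local notation "Qb" => AlgebraicClosure ℚ
local notation "G" => (AlgebraicClosure ℚ) ≃ₐ[ℚ] (AlgebraicClosure ℚ)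

/-- (V) every inertia-invariant element of a `D`-stable `A`-algebra of functions is an `A`-linear
combination of `D`-invariant elements. -/
def FfdsVdmStep (A : ValuationSubring Qb) (M : Type) [AddCommGroup M] (act : G → M → M) : Prop :=
  ∀ 𝔅 : Subalgebra (↥A) (M → Qb),
    (∀ δ : G, δ ∈ A.decompositionSubgroup ℚ → ∀ f ∈ 𝔅, ffdsSm act δ f ∈ 𝔅) →
    ∀ ψ ∈ 𝔅, ψ ∈ ffdsFix act (A.inertiaSubgroupIn ℚ : Set G) →
      ψ ∈ Submodule.span (↥A)
        {φ | φ ∈ 𝔅 ∧ φ ∈ ffdsFix act (A.decompositionSubgroup ℚ : Set G)}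

/-- (D) every `D`-invariant element of `𝔅` is congruent modulo `ℓ · 𝔅^D` to a `G`-invariant
element of `𝔅`, if `𝔅` is `A`-valued and contains `ℓ^N₀ · A^M`. -/
def FfdsDenseStep (ℓ : ℕ) (A : ValuationSubring Qb) (M : Type) [AddCommGroup M]
    (act : G → M → M) : Prop :=
  ∀ 𝔅 : Subalgebra (↥A) (M → Qb), (∀ f ∈ 𝔅, ∀ m, f m ∈ A) →
    (∃ N₀ : ℕ, ∀ Θ : M → Qb, (∀ m, Θ m ∈ A) → (fun m => (ℓ : Qb) ^ N₀ * Θ m) ∈ 𝔅) →
    ∀ ψ ∈ 𝔅, ψ ∈ ffdsFix act (A.decompositionSubgroup ℚ : Set G) →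
      ∃ φ χ : M → Qb, φ ∈ 𝔅 ∧ φ ∈ ffdsFix act (Set.univ : Set G) ∧
        χ ∈ 𝔅 ∧ χ ∈ ffdsFix act (A.decompositionSubgroup ℚ : Set G) ∧
        ∀ m, ψ m = φ m + (ℓ : Qb) * χ m

/-- (F) an `A`-valued, module-finite, `Δ`-closed, separating `A`-algebra of functions which is
spanned over `A` by its `G`-invariant elements gives the output order over `ℤ_(ℓ)`. -/
def FfdsFinalStep (ℓ : ℕ) (A : ValuationSubring Qb) (M : Type) [AddCommGroup M]
    (act : G → M → M) : Prop :=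
  ∀ 𝔅 : Subalgebra (↥A) (M → Qb), (∀ f ∈ 𝔅, ∀ m, f m ∈ A) → 𝔅.toSubmodule.FG →
    (∀ f ∈ 𝔅, FfdsCom (𝔅 : Set (M → Qb)) f) →
    (∀ m m' : M, m ≠ m' → ∃ f ∈ 𝔅, f m ≠ f m') →
    𝔅.toSubmodule ≤ Submodule.span (↥A) {φ | φ ∈ 𝔅 ∧ φ ∈ ffdsFix act (Set.univ : Set G)} →
    FfdsOutput ℓ act

end Fermat.Agent.FF
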