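import Mathlib
import Fermat.Agent.FF.Desc.Steps

/-!
# Program FF, descent leaf: the compositum `B# = A[D-conjugates of Gen]`, the conductor, Nakayama

`ffds_main_of_steps`: from the three module-level steps (`FfdsVdmStep`, `FfdsDenseStep`,
`FfdsFinalStep`) and a finite set `Gen` of `A`-valued, inertia-invariant, separating functions with
`A[Gen]` closed under comultiplication, the output order over `ℤ_(ℓ)`.
Owner: helper23.
-/

set_option autoImplicit false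
set_option linter.unusedSectionVars false
set_option linter.unusedVariables false

noncomputable section

namespace Fermat.Agent.FF

open scoped Pointwise

local notation "Qb" => AlgebraicClosure ℚ
local notation "G" => (AlgebraicClosure ℚ) ≃ₐ[ℚ] (AlgebraicClosure ℚ)

variable {ℓ : ℕ} {A : ValuationSubring Qb} {M : Type} [AddCommGroup M] {act : G → M → M}

/-! ### the `D`-conjugates of the generators -/

/-- the set of `D`-conjugates of the elements of `Gen`. -/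
def ffdsConj (A : ValuationSubring Qb) (act : G → M → M) (Gen : Set (M → Qb)) : Set (M → Qb) :=
  {f | ∃ δ : G, δ ∈ A.decompositionSubgroup ℚ ∧ ∃ g ∈ Gen, f = ffdsSm act δ g}

theorem ffdsConj_finite [Finite M] {Gen : Set (M → Qb)} (hGen : Gen.Finite) :
    (ffdsConj A act Gen).Finite := by
  refine (Set.Finite.biUnion hGen fun g _ => ffds_orbit_finite (act := act) g).subset ?_
  rintro f ⟨δ, _, g, hg, rfl⟩
  exact Set.mem_biUnion hg ⟨δ, rfl⟩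

theorem ffds_subset_conj (hact : FfdsAct act) (Gen : Set (M → Qb)) :
    Gen ⊆ ffdsConj A act Gen :=
  fun g hg => ⟨1, one_mem _, g, hg, (ffdsSm_one hact g).symm⟩

theorem ffdsConj_stable (hact : FfdsAct act) {Gen : Set (M → Qb)} {δ : G}
    (hδ : δ ∈ A.decompositionSubgroup ℚ) {f : M → Qb} (hf : f ∈ ffdsConj A act Gen) :
    ffdsSm act δ f ∈ ffdsConj A act Gen := by
  obtain ⟨δ', hδ', g, hg, rfl⟩ := hf
  exact ⟨δ * δ', mul_mem hδ hδ', g, hg, (ffdsSm_mul hact δ δ' g).symm⟩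

theorem ffdsConj_val {Gen : Set (M → Qb)} (hval : ∀ g ∈ Gen, ∀ m, g m ∈ A) :
    ∀ f ∈ ffdsConj A act Gen, ∀ m, f m ∈ A := by
  rintro f ⟨δ, hδ, g, hg, rfl⟩ m
  exact ffds_decomp_mem hδ (hval g hg _)

theorem ffdsConj_fix (hact : FfdsAct act) {Gen : Set (M → Qb)}
    (hfix : ∀ g ∈ Gen, g ∈ ffdsFix act (A.inertiaSubgroupIn ℚ : Set G)) :
    ∀ f ∈ ffdsConj A act Gen, f ∈ ffdsFix act (A.inertiaSubgroupIn ℚ : Set G) := by
  rintro f ⟨δ, hδ, g, hg, rfl⟩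
  exact ffdsSm_mem_fix_inertia hact hδ (hfix g hg)

/-! ### the conductor -/

theorem ffds_conductor (hℓ : ℓ.Prime) (hA : A.LiesOverPrime ℓ) [Finite M]
    (𝔅 : Subalgebra (↥A) (M → Qb))
    (hsep : ∀ m m' : M, m ≠ m' → ∃ f ∈ 𝔅, (∀ x, f x ∈ A) ∧ f m ≠ f m') :
    ∃ N₀ : ℕ, ∀ Θ : M → Qb, (∀ m, Θ m ∈ A) → (fun m => (ℓ : Qb) ^ N₀ * Θ m) ∈ 𝔅 := by
  classical
  have := Fintype.ofFinite M
  have hex : ∀ p : M × M, ∃ f : M → Qb, p.1 ≠ p.2 → (f ∈ 𝔅 ∧ (∀ x, f x ∈ A) ∧ f p.1 ≠ f p.2) := by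
    intro p
    by_cases hp : p.1 ≠ p.2
    · obtain ⟨f, h1, h2, h3⟩ := hsep p.1 p.2 hp
      exact ⟨f, fun _ => ⟨h1, h2, h3⟩⟩
    · exact ⟨0, fun h => absurd h hp⟩
  choose F hF using hex
  -- the unnormalised indicator functions
  let e : M → M → Qb := fun m₀ =>
    ∏ m ∈ Finset.univ.erase m₀, (F (m₀, m) - fun _ => F (m₀, m) m)
  have he_mem : ∀ m₀, e m₀ ∈ 𝔅 := by
    intro m₀
    refine Subalgebra.prod_mem _ fun m hm => ?_
    have hne : m₀ ≠ m := (Finset.ne_of_mem_erase hm).symm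
    obtain ⟨h1, h2, _⟩ := hF (m₀, m) hne
    exact Subalgebra.sub_mem _ h1 (ffds_const_mem 𝔅 (h2 m))
  have he_apply : ∀ m₀ x, e m₀ x = ∏ m ∈ Finset.univ.erase m₀, (F (m₀, m) x - F (m₀, m) m) := by
    intro m₀ x
    simp only [e, Finset.prod_apply, Pi.sub_apply]
  have he_off : ∀ m₀ x, x ≠ m₀ → e m₀ x = 0 := by
    intro m₀ x hx
    rw [he_apply]
    exact Finset.prod_eq_zero (Finset.mem_erase.mpr ⟨hx, Finset.mem_univ x⟩) (sub_self _)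
  have he_diag : ∀ m₀, e m₀ m₀ ≠ 0 := by
    intro m₀
    rw [he_apply]
    refine Finset.prod_ne_zero_iff.mpr fun m hm => ?_
    have hne : m₀ ≠ m := (Finset.ne_of_mem_erase hm).symm
    exact sub_ne_zero.mpr (hF (m₀, m) hne).2.2
  obtain ⟨C, hC⟩ := ffds_exists_pow_mul_mem_finite hℓ hA (fun m₀ : M => (e m₀ m₀)⁻¹)
  refine ⟨C, fun Θ hΘ => ?_⟩
  have hsum : (fun m => (ℓ : Qb) ^ C * Θ m) =
      ∑ m₀ : M, (fun x => ((ℓ : Qb) ^ C * (e m₀ m₀)⁻¹ * Θ m₀) * e m₀ x) := by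
    funext x
    rw [Finset.sum_apply, Finset.sum_eq_single x]
    · have := he_diag x
      field_simp
    · intro m₀ _ hm₀
      rw [he_off m₀ x (Ne.symm hm₀), mul_zero]
    · intro hx
      exact absurd (Finset.mem_univ x) hx
  rw [hsum]
  refine Subalgebra.sum_mem _ fun m₀ _ => ?_
  refine ffds_const_mul_mem 𝔅 ?_ (he_mem m₀)
  have h1 := hC m₀ 1
  rw [AlgEquiv.one_apply] at h1
  exact A.mul_mem _ _ h1 (hΘ m₀)

/-! ### Nakayama -/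

theorem ffds_prime_mem_maximalIdeal (hA : A.LiesOverPrime ℓ) :
    (⟨(ℓ : Qb), natCast_mem A ℓ⟩ : A) ∈ IsLocalRing.maximalIdeal (↥A) :=
  (ValuationSubring.coe_mem_nonunits_iff (A := A)).mp hA

theorem ffds_nakayama (hA : A.LiesOverPrime ℓ) (𝔅 : Subalgebra (↥A) (M → Qb))
    (hfg : 𝔅.toSubmodule.FG)
    (hV : 𝔅.toSubmodule ≤ Submodule.span (↥A)
      {φ | φ ∈ 𝔅 ∧ φ ∈ ffdsFix act (A.decompositionSubgroup ℚ : Set G)})
    (hD : ∀ ψ ∈ 𝔅, ψ ∈ ffdsFix act (A.decompositionSubgroup ℚ : Set G) →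
      ∃ φ χ : M → Qb, φ ∈ 𝔅 ∧ φ ∈ ffdsFix act (Set.univ : Set G) ∧
        χ ∈ 𝔅 ∧ χ ∈ ffdsFix act (A.decompositionSubgroup ℚ : Set G) ∧
        ∀ m, ψ m = φ m + (ℓ : Qb) * χ m) :
    𝔅.toSubmodule ≤
      Submodule.span (↥A) {φ | φ ∈ 𝔅 ∧ φ ∈ ffdsFix act (Set.univ : Set G)} := by
  set ℓA : A := ⟨(ℓ : Qb), natCast_mem A ℓ⟩ with hℓA
  have hIJ : Ideal.span {ℓA} ≤ Ideal.jacobson (⊥ : Ideal (↥A)) := by
    rw [IsLocalRing.jacobson_eq_maximalIdeal ⊥ bot_ne_top, Ideal.span_le]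
    intro x hx
    rw [Set.mem_singleton_iff] at hx
    rw [hx]
    exact ffds_prime_mem_maximalIdeal hA
  refine Submodule.le_of_le_smul_of_le_jacobson_bot hfg hIJ ?_
  refine hV.trans (Submodule.span_le.mpr ?_)
  rintro ψ ⟨hψ𝔅, hψD⟩
  obtain ⟨φ, χ, hφ𝔅, hφG, hχ𝔅, _, hsum⟩ := hD ψ hψ𝔅 hψD
  have h1 : ψ = φ + ℓA • χ := by
    funext m
    rw [Pi.add_apply, ffds_smul_apply, hsum m]
  rw [h1]
  refine Submodule.add_mem _ (Submodule.mem_sup_left (Submodule.subset_span ⟨hφ𝔅, hφG⟩))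
    (Submodule.mem_sup_right ?_)
  exact Submodule.smul_mem_smul (Ideal.subset_span rfl) hχ𝔅

/-! ### the main theorem, modulo the three steps -/

theorem ffds_main_of_steps (hℓ : ℓ.Prime) (hA : A.LiesOverPrime ℓ) [Finite M]
    (hact : FfdsAct act) (hV : FfdsVdmStep A M act) (hD : FfdsDenseStep ℓ A M act)
    (hF : FfdsFinalStep ℓ A M act) {Gen : Set (M → Qb)} (hfin : Gen.Finite)
    (hval : ∀ g ∈ Gen, ∀ m, g m ∈ A)
    (hfix : ∀ g ∈ Gen, g ∈ ffdsFix act (A.inertiaSubgroupIn ℚ : Set G))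
    (hsep : ∀ m m' : M, m ≠ m' → ∃ g ∈ Gen, g m ≠ g m')
    (hcom : ∀ g ∈ Gen, FfdsCom (Algebra.adjoin (↥A) Gen : Set (M → Qb)) g) :
    FfdsOutput ℓ act := by
  set S := ffdsConj A act Gen with hS
  set 𝔅 : Subalgebra (↥A) (M → Qb) := Algebra.adjoin (↥A) S with h𝔅
  have hSfin : S.Finite := ffdsConj_finite hfin
  have hSval : ∀ f ∈ S, ∀ m, f m ∈ A := ffdsConj_val hval
  have hSfix : ∀ f ∈ S, f ∈ ffdsFix act (A.inertiaSubgroupIn ℚ : Set G) := ffdsConj_fix hact hfix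
  have hGenS : Gen ⊆ S := ffds_subset_conj hact Gen
  have hle : Algebra.adjoin (↥A) Gen ≤ 𝔅 := Algebra.adjoin_mono hGenS
  have h𝔅val : ∀ f ∈ 𝔅, ∀ m, f m ∈ A := ffds_adjoin_val hSval
  have h𝔅fg : 𝔅.toSubmodule.FG := ffds_adjoin_fg hSfin hSval
  have h𝔅stab : ∀ δ : G, δ ∈ A.decompositionSubgroup ℚ → ∀ f ∈ 𝔅, ffdsSm act δ f ∈ 𝔅 :=
    fun δ hδ => ffds_adjoin_stable hδ fun s hs =>
      Algebra.subset_adjoin (ffdsConj_stable hact hδ hs)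
  have h𝔅com : ∀ f ∈ 𝔅, FfdsCom (𝔅 : Set (M → Qb)) f := by
    refine ffds_adjoin_com ?_
    rintro f ⟨δ, hδ, g, hg, rfl⟩
    exact FfdsCom.sm hact (h𝔅stab δ hδ) ((hcom g hg).mono hle)
  have h𝔅sep : ∀ m m' : M, m ≠ m' → ∃ f ∈ 𝔅, f m ≠ f m' := by
    intro m m' hmm'
    obtain ⟨g, hg, hne⟩ := hsep m m' hmm'
    exact ⟨g, Algebra.subset_adjoin (hGenS hg), hne⟩
  have hcond := ffds_conductor hℓ hA 𝔅 (fun m m' hmm' => by
    obtain ⟨f, hf, hne⟩ := h𝔅sep m m' hmm'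
    exact ⟨f, hf, h𝔅val f hf, hne⟩)
  -- (V): spanned by `D`-invariants
  have hspanD : 𝔅.toSubmodule ≤ Submodule.span (↥A)
      {φ | φ ∈ 𝔅 ∧ φ ∈ ffdsFix act (A.decompositionSubgroup ℚ : Set G)} := by
    refine (ffds_adjoin_le_span_fix hSfix).trans (Submodule.span_le.mpr ?_)
    rintro ψ ⟨hψ𝔅, hψI⟩
    exact hV 𝔅 h𝔅stab ψ hψ𝔅 hψI
  -- (D) + Nakayama: spanned by `G`-invariants
  have hspanG := ffds_nakayama hA 𝔅 h𝔅fg hspanD (hD 𝔅 h𝔅val hcond)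
  exact hF 𝔅 h𝔅val h𝔅fg h𝔅com h𝔅sep hspanG

end Fermat.Agent.FF
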