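import Mathlib
import Fermat.Agent.FF.Spec2
import Fermat.Agent.FF.Desc.Main

/-!
# Program FF, descent leaf: adapter to the program manager's literals (`FF/Spec.lean`, `FF/Spec2.lean`)

* `ffds_act_of_spec`    : `FfAct` + `FfCont` + `Finite M` give `FfdsAct` (uniform open subgroup);
* `ffds_modOrd_of_output`: `FfdsOutput ℓ act → FfModOrd ℓ M act`;
* `ffds_spec_of_steps`  : `FfDescentSpec2 ℓ` from the three module-level steps.
Owner: helper23.
-/

set_option autoImplicit false
set_option linter.unusedSectionVars false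
set_option linter.unusedVariables false

noncomputable section

namespace Fermat.Agent.FF

local notation "Qb" => AlgebraicClosure ℚ
local notation "G" => (AlgebraicClosure ℚ) ≃ₐ[ℚ] (AlgebraicClosure ℚ)

variable {ℓ : ℕ} {M : Type} [AddCommGroup M] {act : G → M → M}

theorem ffds_act_of_spec [Finite M] (hact : FfAct M act) (hcont : FfCont M act) :
    FfdsAct act := by
  refine ⟨hact.one, hact.mul, hact.add, ?_⟩
  choose E hE hfix using hcont
  have : ∀ m, FiniteDimensional ℚ (E m) := hE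
  refine ⟨⨆ m, E m, IntermediateField.finiteDimensional_iSup_of_finite, fun σ hσ m => ?_⟩
  exact hfix m σ ((IntermediateField.fixingSubgroup_antitone (le_iSup E m)) hσ)

theorem ffds_modOrd_of_output (h : FfdsOutput ℓ act) : FfModOrd ℓ M act := by
  obtain ⟨𝓗, hfg, heq, hsep, hcom⟩ := h
  exact ⟨𝓗, ⟨hfg, fun φ hφ σ _ m => heq φ hφ σ m, hsep, hcom⟩⟩

/-- the order over `W = A^I` generated by `Gen` lies in the one over `A`. -/
theorem ffds_adjoinW_le (𝔸 : ValuationSubring Qb) (Gen : Set (M → Qb)) {x : M → Qb}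
    (hx : x ∈ Algebra.adjoin (↥(ffWI 𝔸)) Gen) : x ∈ Algebra.adjoin (↥𝔸) Gen := by
  induction hx using Algebra.adjoin_induction with
  | mem x hx => exact Algebra.subset_adjoin hx
  | algebraMap r =>
    have h1 : algebraMap (↥(ffWI 𝔸)) (M → Qb) r =
        algebraMap (↥𝔸) (M → Qb) ⟨(r : Qb), r.2.1⟩ := rfl
    rw [h1]
    exact Subalgebra.algebraMap_mem _ _
  | add x y _ _ hx hy => exact add_mem hx hy
  | mul x y _ _ hx hy => exact mul_mem hx hy

/-- **(A3)+(A4)**, modulo the three module-level steps. -/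
theorem ffds_spec_of_steps (ℓ : ℕ) [hℓ : Fact ℓ.Prime]
    (hV : ∀ (A : ValuationSubring Qb), A.LiesOverPrime ℓ → ∀ (M : Type) [AddCommGroup M]
      [Finite M] (act : G → M → M), FfdsAct act → FfdsVdmStep A M act)
    (hD : ∀ (A : ValuationSubring Qb), A.LiesOverPrime ℓ → ∀ (M : Type) [AddCommGroup M]
      [Finite M] (act : G → M → M), FfdsAct act → FfdsDenseStep ℓ A M act)
    (hF : ∀ (A : ValuationSubring Qb), A.LiesOverPrime ℓ → ∀ (M : Type) [AddCommGroup M]
      [Finite M] (act : G → M → M), FfdsAct act → FfdsFinalStep ℓ A M act) :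
    FfDescentSpec2 ℓ := by
  intro M _ _ act hact hcont 𝔸 h𝔸 hcore
  have hact' : FfdsAct act := ffds_act_of_spec hact hcont
  obtain ⟨Gen, hval, heq, hsep, hcom⟩ := hcore
  refine ffds_modOrd_of_output (ffds_main_of_steps hℓ.out h𝔸 hact' (hV 𝔸 h𝔸 M act hact')
    (hD 𝔸 h𝔸 M act hact') (hF 𝔸 h𝔸 M act hact') (Gen := (↑Gen : Set (M → Qb)))
    Gen.finite_toSet (fun g hg => hval g hg) ?_ (fun m m' hmm' => ?_) ?_)
  · intro g hg
    rw [mem_ffdsFix_iff hact']
    exact fun σ hσ m => heq g hg σ hσ m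
  · obtain ⟨g, hg, hne⟩ := hsep m m' hmm'
    exact ⟨g, hg, hne⟩
  · intro g hg
    obtain ⟨n, a, b, hab⟩ := hcom g hg
    exact FfdsCom.of_fin (fun i => (a i).1) (fun i => (b i).1)
      (fun i => ffds_adjoinW_le 𝔸 _ (a i).2) (fun i => ffds_adjoinW_le 𝔸 _ (b i).2) hab

end Fermat.Agent.FF
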