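import Mathlib
import Fermat.Prelude.Def_FLTPrelim_Ramification

/-!
# Program FF, leaf (0)(b) descent: the two ARITHMETIC leaves, as `Prop`s

Owner of the literals: helper23.  Both are statements about `Gal(ℚ̄/ℚ)`, a valuation subring `A` of
`ℚ̄` over `ℓ`, its decomposition group `D` and inertia group `I`; no module `M` appears.

* `FfdsLevelSpec ℓ A` (producer helper3, `FF/Desc/FinLevel.lean`, `fffl_level`):
  for every finite `E/ℚ` there is a root of unity `ζ` of order prime to `ℓ` such that every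
  `σ ∈ D` fixing `ζ` agrees on `E` with an element of `I`.
  (Proof: `L ⊇ E` finite Galois, `P = lgqiCenter L A`, `q = #(𝓞 L / P)`, `n = q - 1`, `ζ` primitive
  `n`-th root of unity; `x ^ q - x ∈ P` and `X ^ n - 1 = ∏ (X - ζ ^ i)` give for every `x ∈ 𝓞 L` an `i`
  with `x ∈ P` or `x - ζ ^ i ∈ A.nonunits`; so `σ x - x ∈ P`, i.e. `σ|_L ∈ Ideal.inertia _ P`;
  conclude with main's `sqdi_inertia_lift`.)
* `FfdsCrtSpec ℓ A` (producer helper9, `FF/Desc/Crt.lean`, `ffdc_crt`): weak approximation at a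
  finite Galois level: a `D`-fixed `u ∈ L ∩ A`, `u ≡ 1 mod ℓ^N A`, with `σ u ∈ ℓ^N A` for every `σ`
  whose restriction to `L` is not the restriction of an element of `D`.
  (Proof: `L` := normal closure of `E`, the primes `γ P` (`γ ∈ Gal(L/ℚ)`) of `𝓞 L`, CRT for the
  pairwise comaximal ideals `{x | x ∈ ℓ^N γ(A)}`, then `u := ∏_{δ ∈ Stab P} δ u₀`; `Stab P` is the
  image of `D`: first half of the proof of `sqdi_inertia_lift`.)
-/

set_option autoImplicit false

namespace Fermat.Agent.FF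

local notation "Qb" => AlgebraicClosure ℚ
local notation "G" => (AlgebraicClosure ℚ) ≃ₐ[ℚ] (AlgebraicClosure ℚ)

/-- (A4a) finite level: modulo an open subgroup, the stabiliser in `D` of a suitable root of unity
of order prime to `ℓ` is contained in the inertia group. -/
def FfdsLevelSpec (ℓ : ℕ) (A : ValuationSubring Qb) : Prop :=
  ∀ E : IntermediateField ℚ Qb, FiniteDimensional ℚ E →
    ∃ (n : ℕ) (ζ : Qb), ¬ ℓ ∣ n ∧ IsPrimitiveRoot ζ n ∧
      ∀ σ : G, σ ∈ A.decompositionSubgroup ℚ → σ ζ = ζ →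
        ∃ τ : G, τ ∈ A.inertiaSubgroupIn ℚ ∧ ∀ x ∈ E, σ x = τ x

/-- (A4-dense) weak approximation at a finite level. -/
def FfdsCrtSpec (ℓ : ℕ) (A : ValuationSubring Qb) : Prop :=
  ∀ E : IntermediateField ℚ Qb, FiniteDimensional ℚ E → ∀ N : ℕ,
    ∃ (L : IntermediateField ℚ Qb) (u : Qb), E ≤ L ∧ u ∈ L ∧ u ∈ A ∧
      (∀ σ : G, σ ∈ A.decompositionSubgroup ℚ → σ u = u) ∧
      (∃ a ∈ A, u - 1 = (ℓ : Qb) ^ N * a) ∧
      ∀ σ : G, (∃ a ∈ A, σ u = (ℓ : Qb) ^ N * a) ∨
        ∃ δ : G, δ ∈ A.decompositionSubgroup ℚ ∧ ∀ x ∈ L, σ x = δ x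

end Fermat.Agent.FF
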