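import Mathlib
import Fermat.Agent.SQ.Descend.InertiaLift
import Fermat.Agent.FF.Desc.Leaves

/-!
# Program FF (S19 + S32), leaf A4-dense (arithmetic): weak approximation at a finite Galois level
(prefix `ffdc`, owner helper7)

`A ⊂ ℚ̄` a valuation subring over `ℓ`, `D` its decomposition group.  For every finite `E / ℚ` and every
`N` there are a finite Galois `L ⊇ E` and a `D`-fixed `u ∈ L ∩ A` with `u ≡ 1 mod ℓ^N A` and
`σ u ∈ ℓ^N A` for every `σ` whose restriction to `L` is not the restriction of an element of `D`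
(`ffdc_crt : FfdsCrtSpec ℓ A`, the literal of `FF/Desc/Leaves.lean`).

Proof: `L` := normal closure of `E`; `P` := the centre of `A` in `𝓞 L`; `J := {x ∈ 𝓞 L | x ∈ ℓ^N A}`
contains a power `P^k` (the quotient `𝓞 L / ℓ^N` is finite, so `x^i (1 - x^t) ∈ ℓ^N 𝓞 L` for
`x ∈ P`, and `1 - x^t` is a unit of `A`); the Chinese remainder theorem in the Dedekind domain `𝓞 L`
for the conjugates `γ P` gives `u₀ ≡ 1 mod P^k`, `u₀ ∈ (γ P)^k` for `γ P ≠ P`;
`u := ∏_{δ ∈ Stab P} δ u₀`.  The stabiliser of `P` is the image of `D` (conjugacy of the primes of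
`ℤ̄` over `P` under `Gal(ℚ̄/L)`, as in the first half of main's `sqdi_inertia_lift`).
-/

set_option autoImplicit false
set_option linter.unusedSectionVars false
set_option linter.unusedVariables false
set_option linter.style.haveILetI false

open scoped Pointwise

noncomputable section

namespace Fermat.Agent.FF

open NumberField Fermat.Agent.S54 Fermat.Agent.S14 Fermat.Agent.S55

attribute [local instance] Fermat.Agent.S14.plumbU_isAlgebraic Fermat.Agent.S14.plumbU_isAlgClosure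
  Fermat.Agent.S14.plumbU_normal Fermat.Agent.S14.plumbU_isGalois
  Fermat.Agent.S14.plumbU_topZb Fermat.Agent.S14.plumbU_discZb
  Fermat.Agent.S14.plumbU_algebra Fermat.Agent.S14.plumbU_smulCommClass
  Fermat.Agent.S14.plumbU_contZb Fermat.Agent.S14.plumbU_invZb

/-! ### the decomposition group and the valuation subring -/

section ValSub

variable (A : ValuationSubring Qb)

theorem ffdc_dec_mem_iff {s : GQ} (hs : s ∈ A.decompositionSubgroup ℚ) (x : Qb) :
    s x ∈ A ↔ x ∈ A := by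
  have hstab : s • A = A := hs
  constructor
  · intro hx
    have : s • x ∈ s • A := by rw [hstab]; exact hx
    exact ValuationSubring.smul_mem_pointwise_smul_iff.mp this
  · intro hx
    have := ValuationSubring.smul_mem_pointwise_smul s x A hx
    rw [hstab] at this
    exact this

theorem ffdc_mem_nonunits_iff {x : Qb} (hx0 : x ≠ 0) : x ∈ A.nonunits ↔ x⁻¹ ∉ A := by
  rw [ValuationSubring.mem_nonunits_iff, ← A.valuation_le_one_iff, map_inv₀]
  have hpos : 0 < A.valuation x := by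
    rw [zero_lt_iff, ne_eq, map_eq_zero]; exact hx0
  rw [inv_le_one₀ hpos, not_le]

theorem ffdc_dec_nonunits_iff {s : GQ} (hs : s ∈ A.decompositionSubgroup ℚ) (x : Qb) :
    s x ∈ A.nonunits ↔ x ∈ A.nonunits := by
  by_cases hx0 : x = 0
  · subst hx0
    rw [map_zero]
  · have hsx0 : s x ≠ 0 := by
      intro h
      exact hx0 (by simpa using h)
    rw [ffdc_mem_nonunits_iff A hx0, ffdc_mem_nonunits_iff A hsx0, ← map_inv₀,
      ffdc_dec_mem_iff A hs]

end ValSub

/-! ### the stabiliser of the centre is the image of the decomposition group -/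

section Level

variable (L : IntermediateField ℚ Qb) [FiniteDimensional ℚ L] [IsGalois ℚ L]

/-- the coercion `𝓞 L → ℚ̄` intertwines `σ|_L` and `σ`. -/
theorem ffdc_coe_smul (σ : GQ)
    (x : haveI : NumberField L :=
        { to_charZero := inferInstance, to_finiteDimensional := inferInstance }
      𝓞 L) :
    haveI : NumberField L :=
      { to_charZero := inferInstance, to_finiteDimensional := inferInstance }
    ((((σ.restrictNormal L) • x : 𝓞 L) : L) : Qb) = σ ((x : L) : Qb) :=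
  AlgEquiv.restrictNormal_commutes σ L _

/-- restriction maps the decomposition group into the stabiliser of the centre. -/
theorem ffdc_dec_smul_center (A : ValuationSubring Qb) {σ : GQ}
    (hσ : σ ∈ A.decompositionSubgroup ℚ) :
    haveI : NumberField L :=
      { to_charZero := inferInstance, to_finiteDimensional := inferInstance }
    (σ.restrictNormal L) • lgqiCenter L A = lgqiCenter L A := by
  haveI : NumberField L := { to_charZero := inferInstance, to_finiteDimensional := inferInstance }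
  ext x
  rw [Ideal.mem_pointwise_smul_iff_inv_smul_mem, mem_lgqiCenter_iff, mem_lgqiCenter_iff]
  have h2 : (σ.restrictNormal L)⁻¹ = (σ⁻¹).restrictNormal L :=
    (map_inv (AlgEquiv.restrictNormalHom (F := ℚ) (K₁ := Qb) L) σ).symm
  rw [h2, ffdc_coe_smul L σ⁻¹ x]
  exact ffdc_dec_nonunits_iff A (inv_mem hσ) _

/-- **the stabiliser of the centre `P` of `A` in `𝓞 L` is the image of the decomposition group.** -/
theorem ffdc_dec_lift (A : ValuationSubring Qb) {ℓ : ℕ} (hℓ : ℓ.Prime) (hA : A.LiesOverPrime ℓ)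
    (σ : GQ)
    (hσ : haveI : NumberField L :=
        { to_charZero := inferInstance, to_finiteDimensional := inferInstance }
      (σ.restrictNormal L) • lgqiCenter L A = lgqiCenter L A) :
    ∃ δ : GQ, δ ∈ A.decompositionSubgroup ℚ ∧ δ.restrictNormal L = σ.restrictNormal L := by
  classical
  haveI : NumberField L := { to_charZero := inferInstance, to_finiteDimensional := inferInstance }
  set P : Ideal (𝓞 L) := lgqiCenter L A with hPdef
  set Q := primeBelow A with hQdef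
  have hQP : Q.comap (algebraMap (𝓞 L) Zb) = P := rfl
  have hcomm : ∀ (τ : GQ) (x : 𝓞 L),
      τ • plumbU_toZb L x = plumbU_toZb L ((τ.restrictNormal L) • x) := by
    intro τ x
    apply Subtype.ext
    show τ ((x : L) : Qb) = (((τ.restrictNormal L) (x : L) : L) : Qb)
    exact (AlgEquiv.restrictNormal_commutes τ L (x : L)).symm
  have hunder : (σ • Q).under (𝓞 L) = Q.under (𝓞 L) := by
    show (σ • Q).comap (algebraMap (𝓞 L) Zb) = Q.comap (algebraMap (𝓞 L) Zb)
    rw [hQP]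
    ext x
    rw [Ideal.mem_comap, Ideal.mem_pointwise_smul_iff_inv_smul_mem, plumbU_algebraMap_eq, hcomm,
      ← plumbU_algebraMap_eq, ← Ideal.mem_comap, hQP]
    have h2 : (σ⁻¹).restrictNormal L = (σ.restrictNormal L)⁻¹ :=
      map_inv (AlgEquiv.restrictNormalHom (F := ℚ) (K₁ := Qb) L) σ
    rw [h2, ← Ideal.mem_pointwise_smul_iff_inv_smul_mem, hσ]
  obtain ⟨g, hg⟩ := Algebra.IsInvariant.exists_smul_of_under_eq_of_profinite (A := 𝓞 L)
    (G := plumbU_GL L) (σ • Q) Q hunder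
  set τ₁ : GQ := plumbU_res L g * σ with hτ₁def
  have hτ₁Q : τ₁ • Q = Q := by
    rw [hτ₁def, mul_smul, plumbU_res_smul_ideal, ← hg]
  have hτ₁L : τ₁.restrictNormal L = σ.restrictNormal L := by
    rw [hτ₁def, plumbU_restrictNormal_res]
  have hτstab : τ₁ ∈ MulAction.stabilizer GQ (primeBelow A) :=
    MulAction.mem_stabilizer_iff.mpr hτ₁Q
  have hτmem : τ₁ ∈ A.decompositionSubgroup ℚ := by
    rw [MulAction.mem_stabilizer_iff]
    apply le_antisymm
    · intro x hx
      rw [ValuationSubring.mem_pointwise_smul_iff_inv_smul_mem] at hx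
      have := smul_mem_of_mem_stabilizer A ℓ hℓ hA τ₁ hτstab _ hx
      simpa using this
    · intro x hx
      rw [ValuationSubring.mem_pointwise_smul_iff_inv_smul_mem]
      exact smul_mem_of_mem_stabilizer A ℓ hℓ hA τ₁⁻¹ (inv_mem hτstab) x hx
  exact ⟨τ₁, hτmem, hτ₁L⟩

end Level

/-! ### the ideal `J = {x ∈ 𝓞 L | x ∈ ℓ^N A}` contains a power of the centre -/

section Jideal

variable (L : IntermediateField ℚ Qb) [NumberField L] (A : ValuationSubring Qb)

/-- the inclusion `𝓞 L → A`. -/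
def ffdcToA : 𝓞 L →+* A := (toValuationSubring A).comp (plumbU_toZb L)

theorem ffdcToA_coe (x : 𝓞 L) : ((ffdcToA L A x : A) : Qb) = ((x : L) : Qb) := rfl

/-- `J = {x ∈ 𝓞 L | x ∈ ℓ^N A}`. -/
def ffdcJ (ℓ N : ℕ) : Ideal (𝓞 L) := (Ideal.span {((ℓ : A)) ^ N}).comap (ffdcToA L A)

theorem ffdc_mem_J_iff (ℓ N : ℕ) (x : 𝓞 L) :
    x ∈ ffdcJ L A ℓ N ↔ ∃ a ∈ A, ((x : L) : Qb) = (ℓ : Qb) ^ N * a := by
  rw [ffdcJ, Ideal.mem_comap, Ideal.mem_span_singleton']
  constructor
  · rintro ⟨a, ha⟩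
    refine ⟨a.1, a.2, ?_⟩
    have := congrArg (fun t : A => (t : Qb)) ha
    simp only [ffdcToA_coe] at this
    rw [← this, mul_comm]
    simp
  · rintro ⟨a, ha, h⟩
    refine ⟨⟨a, ha⟩, Subtype.ext ?_⟩
    rw [ffdcToA_coe, h, mul_comm]
    simp

theorem ffdc_pow_le_J {ℓ : ℕ} (hℓ : ℓ.Prime) (N : ℕ) :
    ∃ k : ℕ, (lgqiCenter L A) ^ k ≤ ffdcJ L A ℓ N := by
  classical
  set P : Ideal (𝓞 L) := lgqiCenter L A with hPdef
  apply Ideal.exists_pow_le_of_le_radical_of_fg
  · intro x hx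
    -- the finite quotient `𝓞 L / ℓ^N`
    set I0 : Ideal (𝓞 L) := Ideal.span {((ℓ : 𝓞 L)) ^ N} with hI0
    have hI0ne : I0 ≠ ⊥ := by
      rw [hI0, Ne, Ideal.span_singleton_eq_bot]
      have : ((ℓ : ℕ) : 𝓞 L) ≠ 0 := by exact_mod_cast hℓ.ne_zero
      exact pow_ne_zero N this
    haveI : Finite (𝓞 L ⧸ I0) := Ideal.finiteQuotientOfFreeOfNeBot I0 hI0ne
    obtain ⟨i, j, hij, hpow⟩ := Finite.exists_ne_map_eq_of_infinite
      (fun n : ℕ => (Ideal.Quotient.mk I0 x) ^ n)
    -- WLOG `i < j`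
    wlog hlt : i < j generalizing i j
    · exact this j i hij.symm hpow.symm (lt_of_le_of_ne (not_lt.mp hlt) hij.symm)
    obtain ⟨t, rfl⟩ : ∃ t, j = i + (t + 1) := ⟨j - i - 1, by omega⟩
    have hmem : x ^ i - x ^ (i + (t + 1)) ∈ I0 := by
      rw [← Ideal.Quotient.eq_zero_iff_mem, map_sub, map_pow, map_pow, hpow, sub_self]
    rw [hI0, Ideal.mem_span_singleton'] at hmem
    obtain ⟨y, hy⟩ := hmem
    -- in `A`
    have hxm : ffdcToA L A x ∈ IsLocalRing.maximalIdeal A := by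
      rw [← ValuationSubring.coe_mem_nonunits_iff, ffdcToA_coe]
      exact (mem_lgqiCenter_iff L A x).mp hx
    have hunit : IsUnit (1 - (ffdcToA L A x) ^ (t + 1)) := by
      have h1 : (ffdcToA L A x) ^ (t + 1) ∈ IsLocalRing.maximalIdeal A :=
        Ideal.pow_mem_of_mem _ hxm _ (Nat.succ_pos t)
      have h2 : (ffdcToA L A x) ^ (t + 1) ∈ nonunits A := (IsLocalRing.mem_maximalIdeal _).mp h1
      exact IsLocalRing.isUnit_one_sub_self_of_mem_nonunits _ h2
    obtain ⟨w, hw⟩ := hunit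
    refine ⟨i, ?_⟩
    rw [ffdcJ, Ideal.mem_comap, Ideal.mem_span_singleton']
    refine ⟨ffdcToA L A y * (↑w⁻¹ : A), ?_⟩
    have h3 := congrArg (ffdcToA L A) hy
    rw [map_mul, map_pow, map_natCast, map_sub, map_pow, map_pow] at h3
    have h4 : (ffdcToA L A x) ^ i * (1 - (ffdcToA L A x) ^ (t + 1)) =
        ffdcToA L A y * (ℓ : A) ^ N := by
      rw [h3]; ring
    rw [← hw] at h4
    calc ffdcToA L A y * (↑w⁻¹ : A) * (ℓ : A) ^ N
        = (ffdcToA L A y * (ℓ : A) ^ N) * (↑w⁻¹ : A) := by ring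
      _ = (ffdcToA L A x) ^ i * (w : A) * (↑w⁻¹ : A) := by rw [← h4]
      _ = (ffdcToA L A x) ^ i := by rw [mul_assoc, Units.mul_inv, mul_one]
      _ = ffdcToA L A (x ^ i) := by rw [map_pow]
  · exact (isNoetherianRing_iff_ideal_fg _).mp inferInstance P

end Jideal

/-! ### the approximation element at a finite Galois level -/

section Crt

variable (L : IntermediateField ℚ Qb) [FiniteDimensional ℚ L] [IsGalois ℚ L]

/-- **weak approximation at the finite Galois level `L`**: a `D`-fixed `u ∈ L ∩ A`,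
`u ≡ 1 mod ℓ^N A`, with `σ u ∈ ℓ^N A` unless `σ|_L` is the restriction of an element of `D`. -/
theorem ffdc_crt_galois {ℓ : ℕ} (hℓ : ℓ.Prime) (A : ValuationSubring Qb) (hA : A.LiesOverPrime ℓ)
    (N : ℕ) :
    ∃ u : Qb, u ∈ L ∧ u ∈ A ∧ IsIntegral ℤ u ∧
      (∀ σ : GQ, σ ∈ A.decompositionSubgroup ℚ → σ u = u) ∧
      (∃ a ∈ A, u - 1 = (ℓ : Qb) ^ N * a) ∧
      ∀ σ : GQ, (∃ a ∈ A, σ u = (ℓ : Qb) ^ N * a) ∨
        ∃ δ : GQ, δ ∈ A.decompositionSubgroup ℚ ∧ δ.restrictNormal L = σ.restrictNormal L := by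
  classical
  haveI : NumberField L := { to_charZero := inferInstance, to_finiteDimensional := inferInstance }
  set P : Ideal (𝓞 L) := lgqiCenter L A with hPdef
  haveI hPprime : P.IsPrime := lgqiCenter_isPrime L A
  have hP : P ≠ ⊥ := lgqiCenter_ne_bot L A hℓ hA
  obtain ⟨k, hk⟩ := ffdc_pow_le_J L A hℓ N
  -- the orbit of `P`
  set s : Finset (Ideal (𝓞 L)) := Finset.univ.image (fun γ : L ≃ₐ[ℚ] L => γ • P) with hs
  have hprime : ∀ Q ∈ s, Prime Q := by
    intro Q hQ
    obtain ⟨γ, -, rfl⟩ := Finset.mem_image.mp hQ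
    refine Ideal.prime_of_isPrime ?_ inferInstance
    intro h
    apply hP
    have h1 : γ⁻¹ • (γ • P) = γ⁻¹ • (⊥ : Ideal (𝓞 L)) := by rw [h]
    rwa [inv_smul_smul, Ideal.smul_bot] at h1
  obtain ⟨u₀, hu₀⟩ := IsDedekindDomain.exists_forall_sub_mem_ideal (s := s) (fun Q => Q)
    (fun _ => k) hprime (fun i _ j _ hij => hij)
    (fun Q => if (Q : Ideal (𝓞 L)) = P then 1 else 0)
  have hu₀P : u₀ - 1 ∈ P ^ k := by
    have h := hu₀ P (Finset.mem_image.mpr ⟨1, Finset.mem_univ _, one_smul _ _⟩)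
    simpa using h
  have hu₀Q : ∀ γ : L ≃ₐ[ℚ] L, γ • P ≠ P → u₀ ∈ (γ • P) ^ k := by
    intro γ hγ
    have h := hu₀ (γ • P) (Finset.mem_image.mpr ⟨γ, Finset.mem_univ _, rfl⟩)
    simpa [hγ] using h
  -- the stabiliser and the product
  set S : Finset (L ≃ₐ[ℚ] L) := Finset.univ.filter (fun δ => δ • P = P) with hS
  have hmemS : ∀ δ : L ≃ₐ[ℚ] L, δ ∈ S ↔ δ • P = P := fun δ => by
    rw [hS, Finset.mem_filter]
    exact ⟨fun h => h.2, fun h => ⟨Finset.mem_univ _, h⟩⟩
  set u' : 𝓞 L := ∏ δ ∈ S, δ • u₀ with hu'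
  have hsmulu : ∀ γ : L ≃ₐ[ℚ] L, γ • u' = ∏ δ ∈ S, (γ * δ) • u₀ := by
    intro γ
    rw [hu', Finset.smul_prod']
    exact Finset.prod_congr rfl fun δ _ => (mul_smul γ δ u₀).symm
  -- (F1) the stabiliser fixes `u'`
  have hfix : ∀ γ : L ≃ₐ[ℚ] L, γ • P = P → γ • u' = u' := by
    intro γ hγ
    rw [hsmulu, hu']
    refine Finset.prod_equiv (Equiv.mulLeft γ) (fun δ => ?_) (fun δ _ => rfl)
    rw [hmemS, hmemS, Equiv.coe_mulLeft, mul_smul]
    constructor
    · intro h; rw [h, hγ]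
    · intro h
      have h1 : γ⁻¹ • (γ • δ • P) = γ⁻¹ • P := by rw [h]
      rw [inv_smul_smul] at h1
      rw [h1]
      have h2 : γ⁻¹ • (γ • P) = γ⁻¹ • P := by rw [hγ]
      rw [inv_smul_smul] at h2
      exact h2.symm
  -- (F2),(F3) `u' ≡ 1 mod P^k`
  have hpowsmul : ∀ (γ : L ≃ₐ[ℚ] L) (Q : Ideal (𝓞 L)), γ • (Q ^ k) = (γ • Q) ^ k :=
    fun γ Q => smul_pow' γ Q k
  have hu'1 : u' - 1 ∈ P ^ k := by
    rw [← Ideal.Quotient.eq_zero_iff_mem, map_sub, map_one, sub_eq_zero, hu', map_prod]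
    apply Finset.prod_eq_one
    intro δ hδ
    have hδP : δ • P = P := (hmemS δ).mp hδ
    have h1 : δ • (u₀ - 1) ∈ δ • (P ^ k) := Ideal.smul_mem_pointwise_smul δ _ _ hu₀P
    rw [hpowsmul, hδP, smul_sub, smul_one] at h1
    rw [← sub_eq_zero, ← map_one (Ideal.Quotient.mk (P ^ k)), ← map_sub,
      Ideal.Quotient.eq_zero_iff_mem]
    exact h1
  -- (F4) `γ u' ∈ P^k` for `γ` outside the stabiliser
  have hout : ∀ γ : L ≃ₐ[ℚ] L, γ • P ≠ P → γ • u' ∈ P ^ k := by
    intro γ hγ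
    rw [hsmulu]
    have h1S : (1 : L ≃ₐ[ℚ] L) ∈ S := (hmemS 1).mpr (one_smul _ _)
    refine Ideal.mem_of_dvd _ (Finset.dvd_prod_of_mem (fun δ => (γ * δ) • u₀) h1S) ?_
    rw [mul_one]
    have hγ' : γ⁻¹ • P ≠ P := by
      intro h
      apply hγ
      have h2 : γ • (γ⁻¹ • P) = γ • P := by rw [h]
      rw [smul_inv_smul] at h2
      exact h2.symm
    have h3 : γ • u₀ ∈ γ • ((γ⁻¹ • P) ^ k) := Ideal.smul_mem_pointwise_smul γ _ _ (hu₀Q γ⁻¹ hγ')
    rwa [hpowsmul, smul_inv_smul] at h3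
  -- the element
  refine ⟨((u' : L) : Qb), (u' : L).2, mem_valuationSubring_of_isIntegral A _ (plumbU_toZb L u').2,
    (plumbU_toZb L u').2, ?_, ?_, ?_⟩
  · intro σ hσ
    rw [← ffdc_coe_smul L σ u', hfix _ (ffdc_dec_smul_center L A hσ)]
  · have h1 := (ffdc_mem_J_iff L A ℓ N (u' - 1)).mp (hk hu'1)
    obtain ⟨a, ha, h⟩ := h1
    refine ⟨a, ha, ?_⟩
    rw [← h]
    simp
  · intro σ
    by_cases hσ : (σ.restrictNormal L) • P = P
    · right
      exact ffdc_dec_lift L A hℓ hA σ hσ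
    · left
      have h1 := (ffdc_mem_J_iff L A ℓ N _).mp (hk (hout _ hσ))
      obtain ⟨a, ha, h⟩ := h1
      refine ⟨a, ha, ?_⟩
      rw [← h, ffdc_coe_smul L σ u']

end Crt

/-! ### the literal of `FF/Desc/Leaves.lean` -/

section Main

theorem ffdc_exists_normal_ge {K F : Type*} [Field K] [Field F] [Algebra K F] [Normal K F]
    (E : IntermediateField K F) [FiniteDimensional K E] :
    ∃ E' : IntermediateField K F, E ≤ E' ∧ FiniteDimensional K E' ∧ Normal K E' :=
  ⟨IntermediateField.normalClosure K E F, IntermediateField.le_normalClosure E, inferInstance,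
    inferInstance⟩

/-- a finite Galois extension of `ℚ` inside `ℚ̄` containing a given finite-dimensional field. -/
theorem ffdc_exists_galois (E : IntermediateField ℚ Qb) [FiniteDimensional ℚ E] :
    ∃ L : IntermediateField ℚ Qb, E ≤ L ∧ FiniteDimensional ℚ L ∧ IsGalois ℚ L := by
  obtain ⟨L, h1, h2, h3⟩ := ffdc_exists_normal_ge E
  refine ⟨L, h1, h2, ?_⟩
  have h4 : (DivisionRing.toRatAlgebra : Algebra ℚ L) = L.algebra' := Subsingleton.elim _ _
  rw [h4]
  have : Algebra.IsSeparable ℚ L := inferInstance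
  exact ⟨⟩

theorem ffdc_restrictNormal_eq {L : IntermediateField ℚ Qb} [Normal ℚ L] {τ s : GQ}
    (h : τ.restrictNormal L = s.restrictNormal L) {x : Qb} (hx : x ∈ L) : τ x = s x := by
  have h1 := AlgEquiv.restrictNormal_commutes τ L ⟨x, hx⟩
  have h2 := AlgEquiv.restrictNormal_commutes s L ⟨x, hx⟩
  rw [h] at h1
  exact h1.symm.trans h2

/-- **A4-dense (arithmetic) in helper23's literal** (`FF/Desc/Leaves.lean`): weak approximation at a
finite Galois level. -/
theorem ffdc_crt {ℓ : ℕ} (hℓ : ℓ.Prime) (A : ValuationSubring Qb) (hA : A.LiesOverPrime ℓ) :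
    FfdsCrtSpec ℓ A := by
  intro E hE N
  haveI := hE
  obtain ⟨L, hEL, hLfin, hLgal⟩ := ffdc_exists_galois E
  haveI := hLfin
  haveI := hLgal
  obtain ⟨u, huL, huA, -, hfix, h1, hout⟩ := ffdc_crt_galois L hℓ A hA N
  refine ⟨L, u, hEL, huL, huA, hfix, h1, fun σ => ?_⟩
  rcases hout σ with h | ⟨δ, hδ, hδL⟩
  · exact Or.inl h
  · exact Or.inr ⟨δ, hδ, fun x hx => (ffdc_restrictNormal_eq hδL hx).symm⟩

end Main

end Fermat.Agent.FF
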