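import Mathlib
import Fermat.Agent.FF.Desc.Leaves
import Fermat.Agent.FF.Desc.Steps

/-!
# Program FF, descent leaf (D): the dense step `D → G` modulo `ℓ`

Owner: helper9.  Namespace `Fermat.Agent.FF`, prefix `ffdd`.  Literals: helper23's
`FF/Desc/Steps.lean` (`FfdsDenseStep`) and `FF/Desc/Leaves.lean` (`FfdsCrtSpec`).

`ffdd_step : FfdsCrtSpec ℓ A → FfdsDenseStep ℓ A M act`: every `D`-invariant element `ψ` of an
`A`-valued `A`-algebra `𝔅 ⊇ ℓ^N₀ · A^M` of functions is congruent modulo `ℓ · 𝔅^D` to a `G`-invariant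
element of `𝔅`: `φ := ∑` of the distinct `G`-conjugates of `u ψ`, `u` the CRT element.
-/

set_option autoImplicit false

noncomputable section

namespace Fermat.Agent.FF

local notation "Qb" => AlgebraicClosure ℚ
local notation "G" => (AlgebraicClosure ℚ) ≃ₐ[ℚ] (AlgebraicClosure ℚ)

variable {M : Type}

/-- the functions with values in `ℓ^n A` -/
def ffddDiv (ℓ : ℕ) (A : ValuationSubring Qb) (n : ℕ) : AddSubgroup (M → Qb) where
  carrier := {F | ∀ m, ∃ t ∈ A, F m = (ℓ : Qb) ^ n * t}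
  add_mem' := by
    intro F F' hF hF' m
    obtain ⟨t, ht, h1⟩ := hF m
    obtain ⟨t', ht', h2⟩ := hF' m
    exact ⟨t + t', A.add_mem _ _ ht ht', by rw [Pi.add_apply, h1, h2, mul_add]⟩
  zero_mem' := fun m => ⟨0, A.zero_mem, by rw [Pi.zero_apply, mul_zero]⟩
  neg_mem' := by
    intro F hF m
    obtain ⟨t, ht, h1⟩ := hF m
    exact ⟨-t, A.neg_mem _ ht, by rw [Pi.neg_apply, h1, mul_neg]⟩

theorem mem_ffddDiv {ℓ : ℕ} {A : ValuationSubring Qb} {n : ℕ} {F : M → Qb} :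
    F ∈ ffddDiv (M := M) ℓ A n ↔ ∀ m, ∃ t ∈ A, F m = (ℓ : Qb) ^ n * t := Iff.rfl

variable [AddCommGroup M] {act : G → M → M}

omit [AddCommGroup M] in
/-- the semilinear action on a product with a constant -/
theorem ffdd_sm_const_mul (σ : G) (x : Qb) (ψ : M → Qb) :
    ffdsSm act σ ((fun _ : M => x) * ψ) = (fun _ : M => σ x) * ffdsSm act σ ψ := by
  rw [map_mul, ffdsSm_const]

/-- **(D) the dense step.** -/
theorem ffdd_step {ℓ : ℕ} (hℓ : ℓ.Prime) (A : ValuationSubring Qb) (hA : A.LiesOverPrime ℓ)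
    [Finite M] (hact : FfdsAct act) (hCrt : FfdsCrtSpec ℓ A) : FfdsDenseStep ℓ A M act := by
  classical
  intro 𝔅 hval hcond ψ hψ𝔅 hψD
  obtain ⟨N₀, hcond⟩ := hcond
  -- bounded denominators of the conjugates of the values of `ψ`
  obtain ⟨C, hC⟩ := ffds_exists_pow_mul_mem_finite hℓ hA (fun m : M => ψ m)
  obtain ⟨E, hEfin, hEM, hEψ⟩ := ffds_exists_field hact ψ
  obtain ⟨L, u, hEL, huL, huA, huD, ⟨a₁, ha₁, hu1⟩, hσu⟩ := hCrt E hEfin (C + N₀ + 1)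
  have hℓA : (ℓ : Qb) ∈ A := natCast_mem A ℓ
  have hℓ0 : (ℓ : Qb) ≠ 0 := Nat.cast_ne_zero.mpr hℓ.ne_zero
  -- the function `f = u ψ`
  set f : M → Qb := (fun _ : M => u) * ψ with hf
  have hf𝔅 : f ∈ 𝔅 := 𝔅.mul_mem (ffds_const_mem 𝔅 huA) hψ𝔅
  have hfD : f ∈ ffdsFix act (A.decompositionSubgroup ℚ : Set G) := by
    intro δ hδ
    rw [hf, ffdd_sm_const_mul, huD δ hδ, hψD δ hδ]
  -- its orbit
  set S : Finset (M → Qb) := (ffds_orbit_finite (act := act) f).toFinset with hS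
  have hmemS : ∀ g, g ∈ S ↔ ∃ σ : G, ffdsSm act σ f = g := by
    intro g
    rw [hS, Set.Finite.mem_toFinset]
    rfl
  have hfS : f ∈ S := (hmemS f).mpr ⟨1, ffdsSm_one hact f⟩
  set φ : M → Qb := ∑ g ∈ S, g with hφ
  -- `φ` is `G`-invariant
  have hφG : φ ∈ ffdsFix act (Set.univ : Set G) := by
    intro θ _
    rw [hφ, map_sum]
    refine Finset.sum_bij (fun g _ => ffdsSm act θ g) ?_ ?_ ?_ ?_
    · intro g hg
      obtain ⟨σ, rfl⟩ := (hmemS g).mp hg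
      exact (hmemS _).mpr ⟨θ * σ, ffdsSm_mul hact θ σ f⟩
    · intro g _ g' _ h
      exact ffdsSm_injective hact θ h
    · intro g hg
      obtain ⟨σ, rfl⟩ := (hmemS g).mp hg
      refine ⟨ffdsSm act (θ⁻¹ * σ) f, (hmemS _).mpr ⟨_, rfl⟩, ?_⟩
      rw [← ffdsSm_mul hact, mul_inv_cancel_left]
    · intro g _
      rfl
  -- the other conjugates are divisible by `ℓ^(N₀+1)`
  have hother : ∀ g ∈ S.erase f, g ∈ ffddDiv (M := M) ℓ A (N₀ + 1) := by
    intro g hg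
    obtain ⟨hgf, hgS⟩ := Finset.mem_erase.mp hg
    obtain ⟨θ, rfl⟩ := (hmemS g).mp hgS
    rcases hσu θ with ⟨a, ha, hθu⟩ | ⟨δ, hδ, hθδ⟩
    · intro m
      refine ⟨a * ((ℓ : Qb) ^ C * θ (ψ (act θ⁻¹ m))), A.mul_mem _ _ ha (hC _ θ), ?_⟩
      rw [hf, ffdd_sm_const_mul, Pi.mul_apply, ffdsSm_apply, hθu]
      ring
    · exfalso
      apply hgf
      -- `γ = δ⁻¹ θ` fixes `L`
      have hγL : δ⁻¹ * θ ∈ L.fixingSubgroup := by
        rw [IntermediateField.mem_fixingSubgroup_iff]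
        intro x hx
        rw [AlgEquiv.mul_apply, hθδ x hx]
        exact δ.symm_apply_apply x
      have hγE : δ⁻¹ * θ ∈ E.fixingSubgroup := IntermediateField.fixingSubgroup_antitone hEL hγL
      have hγu : (δ⁻¹ * θ) u = u := (IntermediateField.mem_fixingSubgroup_iff L _).mp hγL u huL
      have hγf : ffdsSm act (δ⁻¹ * θ) f = f := by
        rw [hf, ffdd_sm_const_mul, hγu, ffdsSm_eq_of_fixing hact hEM hEψ hγE]
      have hθ : θ = δ * (δ⁻¹ * θ) := by rw [mul_inv_cancel_left]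
      rw [hθ, ffdsSm_mul hact, hγf]
      exact hfD δ hδ
  -- `ψ - f` is divisible by `ℓ^(N₀+1)`
  have hψf : ψ - f ∈ ffddDiv (M := M) ℓ A (N₀ + 1) := by
    intro m
    refine ⟨-(a₁ * ((ℓ : Qb) ^ C * ψ m)), A.neg_mem _ (A.mul_mem _ _ ha₁
      (A.mul_mem _ _ (A.pow_mem hℓA C) (hval ψ hψ𝔅 m))), ?_⟩
    have h1 : u = 1 + (ℓ : Qb) ^ (C + N₀ + 1) * a₁ := by rw [← hu1]; ring
    rw [Pi.sub_apply, hf, Pi.mul_apply, h1]
    ring
  -- hence `ψ - φ` is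
  have hψφ : ψ - φ ∈ ffddDiv (M := M) ℓ A (N₀ + 1) := by
    have h1 : ψ - φ = (ψ - f) - ∑ g ∈ S.erase f, g := by
      rw [hφ, ← Finset.add_sum_erase S (fun g => g) hfS]
      abel
    rw [h1]
    exact sub_mem hψf (sum_mem hother)
  choose t ht htm using hψφ
  set χ : M → Qb := fun m => (ℓ : Qb) ^ N₀ * t m with hχ
  have hχ𝔅 : χ ∈ 𝔅 := hcond t ht
  have hrel : ∀ m, ψ m = φ m + (ℓ : Qb) * χ m := by
    intro m
    have h1 := htm m
    rw [Pi.sub_apply] at h1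
    rw [hχ]
    simp only
    rw [← mul_assoc, ← pow_succ', ← h1]
    ring
  have hφeq : φ = ψ - (fun _ : M => (ℓ : Qb)) * χ := by
    funext m
    rw [Pi.sub_apply, Pi.mul_apply, hrel m]
    ring
  have hφ𝔅 : φ ∈ 𝔅 := by
    rw [hφeq]
    exact 𝔅.sub_mem hψ𝔅 (𝔅.mul_mem (ffds_const_mem 𝔅 hℓA) hχ𝔅)
  refine ⟨φ, χ, hφ𝔅, hφG, hχ𝔅, ?_, hrel⟩
  -- `χ` is `D`-invariant since `ℓ χ = ψ - φ` is
  intro δ hδ
  have h1 : (fun _ : M => (ℓ : Qb)) * χ = ψ - φ := by rw [hφeq]; abel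
  have h2 : ffdsSm act δ ((fun _ : M => (ℓ : Qb)) * χ) = (fun _ : M => (ℓ : Qb)) * χ := by
    rw [h1, map_sub, hψD δ hδ, hφG δ (Set.mem_univ δ)]
  rw [ffdd_sm_const_mul, map_natCast] at h2
  funext m
  have h3 := congrFun h2 m
  rw [Pi.mul_apply, Pi.mul_apply] at h3
  exact mul_left_cancel₀ hℓ0 h3

end Fermat.Agent.FF
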