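import Mathlib
import Fermat.Agent.SQ.Descend.InertiaLift
import Fermat.Agent.FF.Desc.Leaves

/-!
# Program FF (S19 + S32), leaf A4a : from the inertia group to a finite unramified level
(prefix `fffl`, owner helper3)

`𝔸 ⊂ ℚ̄` a valuation subring over `ℓ`, `I ≤ D` its inertia and decomposition groups.
A finite family of `I`-equivariant functions `φ : M → ℚ̄` on a finite Galois set `M` (continuous
action) is equivariant under `D_ζ := {s ∈ D | s ζ = ζ}` for a suitable root of unity `ζ` of order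
prime to `ℓ` (`fffl_main`).  In particular finitely many `I`-fixed elements of `ℚ̄` are fixed by
`D_ζ` (`fffl_const`).

Proof: `L / ℚ` finite Galois containing a field of definition of `M` and all values; `P` the centre of
`𝔸` in `𝓞 L`, `q = #(𝓞 L / P)`, `n = q - 1`, `ζ` a primitive `n`-th root of unity.  If `s ∈ D` fixes
`ζ` then for `x ∈ 𝓞 L ∖ P` one has `x^n ≡ 1`, so `x ≡ ζ^j mod 𝔪` for some `j`
(`X^n - 1 = ∏ (X - ζ')`, `𝔪` prime), hence `s x - x ∈ 𝔪 ∩ 𝓞 L = P`: the restriction of `s` to `L` lies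
in the inertia group of `P`, so it is the restriction of some `τ ∈ I` (main's `sqdi_inertia_lift`).
-/

set_option autoImplicit false
set_option linter.unusedSectionVars false
set_option linter.unusedVariables false
set_option linter.style.haveILetI false

open scoped Pointwise

noncomputable section

namespace Fermat.Agent.FF

open NumberField Fermat.Agent.S54 Fermat.Agent.S14 Fermat.Agent.S55 Fermat.Agent.SQ

local notation "Qb" => AlgebraicClosure ℚ

/-! ### valuation subrings and the decomposition group -/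

section ValSub

variable (A : ValuationSubring Qb)

theorem fffl_dec_mem_iff {s : Qb ≃ₐ[ℚ] Qb} (hs : s ∈ A.decompositionSubgroup ℚ) (x : Qb) :
    s x ∈ A ↔ x ∈ A := by
  have hstab : s • A = A := hs
  constructor
  · intro hx
    have : s • x ∈ s • A := by rw [hstab]; exact hx
    exact ValuationSubring.smul_mem_pointwise_smul_iff.mp this
  · intro hx
    have := ValuationSubring.smul_mem_pointwise_smul s x A hx
    rw [hstab] at this
    exact this

theorem fffl_mem_nonunits_iff (x : Qb) : x ∈ A.nonunits ↔ x = 0 ∨ (x ∈ A ∧ x⁻¹ ∉ A) := by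
  rw [ValuationSubring.mem_nonunits_iff]
  by_cases hx0 : x = 0
  · subst hx0
    simp
  · have hpos : 0 < A.valuation x := by
      rw [zero_lt_iff, ne_eq, map_eq_zero]; exact hx0
    constructor
    · intro h
      refine Or.inr ⟨(A.valuation_le_one_iff x).mp h.le, fun hinv => ?_⟩
      rw [← A.valuation_le_one_iff, map_inv₀, inv_le_one₀ hpos] at hinv
      exact absurd h (not_lt.mpr hinv)
    · rintro (h | ⟨h1, h2⟩)
      · exact absurd h hx0
      · by_contra hge
        rw [not_lt] at hge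
        apply h2
        rw [← A.valuation_le_one_iff, map_inv₀, inv_le_one₀ hpos]
        exact hge

theorem fffl_dec_nonunits {s : Qb ≃ₐ[ℚ] Qb} (hs : s ∈ A.decompositionSubgroup ℚ) {x : Qb}
    (hx : x ∈ A.nonunits) : s x ∈ A.nonunits := by
  rw [fffl_mem_nonunits_iff] at hx ⊢
  rcases hx with hx | ⟨h1, h2⟩
  · exact Or.inl (by rw [hx, map_zero])
  · refine Or.inr ⟨(fffl_dec_mem_iff A hs x).mpr h1, ?_⟩
    rw [← map_inv₀, fffl_dec_mem_iff A hs]
    exact h2

theorem fffl_nonunits_sub {x y : Qb} (hx : x ∈ A.nonunits) (hy : y ∈ A.nonunits) :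
    x - y ∈ A.nonunits := by
  obtain ⟨hxA, hx'⟩ := ValuationSubring.mem_nonunits_iff_exists_mem_maximalIdeal.mp hx
  obtain ⟨hyA, hy'⟩ := ValuationSubring.mem_nonunits_iff_exists_mem_maximalIdeal.mp hy
  exact ValuationSubring.mem_nonunits_iff_exists_mem_maximalIdeal.mpr
    ⟨A.sub_mem hxA hyA, (IsLocalRing.maximalIdeal A).sub_mem hx' hy'⟩

/-- if `y ∈ 𝔸` and `y ^ n ≡ 1 mod 𝔪` then `y ≡ ζ'` for an `n`-th root of unity `ζ'`, which is a power
of a given primitive one. -/
theorem fffl_exists_pow_sub_mem {n : ℕ} (hn : 0 < n) {ζ : Qb} (hζ : IsPrimitiveRoot ζ n) {y : Qb}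
    (hy : y ∈ A) (h : y ^ n - 1 ∈ A.nonunits) : ∃ j : ℕ, y - ζ ^ j ∈ A.nonunits := by
  classical
  have hprod : y ^ n - 1 = ∏ μ ∈ Polynomial.nthRootsFinset n (1 : Qb), (y - μ) := by
    have h1 := congrArg (Polynomial.eval y) (Polynomial.X_pow_sub_one_eq_prod hn hζ)
    simpa [Polynomial.eval_prod] using h1
  have hint : ∀ μ ∈ Polynomial.nthRootsFinset n (1 : Qb), μ ∈ A := by
    intro μ hμ
    apply mem_valuationSubring_of_isIntegral
    rw [Polynomial.mem_nthRootsFinset hn] at hμ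
    exact ⟨Polynomial.X ^ n - 1, Polynomial.monic_X_pow_sub_C (1 : ℤ) hn.ne', by simp [hμ]⟩
  -- work in the ring `A`
  obtain ⟨hmem, hmax⟩ := ValuationSubring.mem_nonunits_iff_exists_mem_maximalIdeal.mp h
  have hprodA : (⟨y ^ n - 1, hmem⟩ : A) =
      ∏ μ ∈ (Polynomial.nthRootsFinset n (1 : Qb)).attach,
        (⟨y - μ.1, A.sub_mem hy (hint μ.1 μ.2)⟩ : A) := by
    apply Subtype.ext
    change y ^ n - 1 = _
    rw [hprod, ← Finset.prod_attach]
    have : ∀ (s : Finset {x // x ∈ Polynomial.nthRootsFinset n (1 : Qb)}),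
        ((∏ μ ∈ s, (⟨y - μ.1, A.sub_mem hy (hint μ.1 μ.2)⟩ : A) : A) : Qb) =
          ∏ μ ∈ s, (y - μ.1) := by
      intro s
      induction s using Finset.induction_on with
      | empty => simp
      | insert a s ha ih => rw [Finset.prod_insert ha, Finset.prod_insert ha, ← ih]; rfl
    rw [this]
  rw [hprodA] at hmax
  haveI : (IsLocalRing.maximalIdeal A).IsPrime := (IsLocalRing.maximalIdeal.isMaximal A).isPrime
  obtain ⟨μ, _, hμ⟩ := Ideal.IsPrime.prod_mem_iff.mp hmax
  have hμ1 : μ.1 ^ n = 1 := (Polynomial.mem_nthRootsFinset hn (1 : Qb)).mp μ.2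
  haveI : NeZero n := ⟨hn.ne'⟩
  obtain ⟨j, _, hj⟩ := hζ.eq_pow_of_pow_eq_one hμ1
  refine ⟨j, ?_⟩
  rw [hj]
  exact ValuationSubring.mem_nonunits_iff_exists_mem_maximalIdeal.mpr ⟨_, hμ⟩

end ValSub

/-! ### the finite level -/

section Level

/-- **the finite level**: for `L / ℚ` finite Galois there is a root of unity `ζ` of order prime to `ℓ`
such that every `s ∈ D` fixing `ζ` agrees on `L` with an element of the inertia group `I`. -/
theorem fffl_level_galois {ℓ : ℕ} (hℓ : ℓ.Prime) (A : ValuationSubring Qb)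
    (hA : A.LiesOverPrime ℓ) (L : IntermediateField ℚ Qb) [FiniteDimensional ℚ L] [IsGalois ℚ L] :
    ∃ (n : ℕ) (ζ : Qb), 0 < n ∧ ¬ ℓ ∣ n ∧ IsPrimitiveRoot ζ n ∧
      ∀ s ∈ A.decompositionSubgroup ℚ, s ζ = ζ →
        ∃ τ ∈ A.inertiaSubgroupIn ℚ, τ.restrictNormal L = s.restrictNormal L := by
  classical
  haveI : NumberField L := { to_charZero := inferInstance, to_finiteDimensional := inferInstance }
  set P : Ideal (𝓞 L) := lgqiCenter L A with hPdef
  haveI hPprime : P.IsPrime := lgqiCenter_isPrime L A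
  have hP : P ≠ ⊥ := lgqiCenter_ne_bot L A hℓ hA
  haveI hPmax : P.IsMaximal := Ideal.IsPrime.isMaximal inferInstance hP
  haveI : Finite (𝓞 L ⧸ P) := Ideal.finiteQuotientOfFreeOfNeBot P hP
  letI : Field (𝓞 L ⧸ P) := Ideal.Quotient.field P
  letI : Fintype (𝓞 L ⧸ P) := Fintype.ofFinite _
  set q := Fintype.card (𝓞 L ⧸ P) with hq
  have hq1 : 1 < q := Fintype.one_lt_card
  have hn : 0 < q - 1 := by omega
  haveI : NeZero ((q - 1 : ℕ) : Qb) := ⟨by exact_mod_cast hn.ne'⟩
  obtain ⟨ζ, hζ⟩ := HasEnoughRootsOfUnity.exists_primitiveRoot Qb (q - 1)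
  refine ⟨q - 1, ζ, hn, ?_, hζ, ?_⟩
  · intro hdvd
    have h0 : ((ℓ : ℕ) : 𝓞 L ⧸ P) = 0 := by
      have := natCast_mem_lgqiCenter L A hA
      rw [← map_natCast (Ideal.Quotient.mk P)]
      exact Ideal.Quotient.eq_zero_iff_mem.mpr this
    have h1 : ((q - 1 : ℕ) : 𝓞 L ⧸ P) = 0 := by
      obtain ⟨c, hc⟩ := hdvd
      rw [hc, Nat.cast_mul, h0, zero_mul]
    have h2 : ((q : ℕ) : 𝓞 L ⧸ P) = 0 := FiniteField.cast_card_eq_zero _
    have h3 : q = (q - 1) + 1 := by omega
    rw [h3, Nat.cast_add, h1, zero_add, Nat.cast_one] at h2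
    exact one_ne_zero h2
  · intro s hs hsζ
    have hcoe : ∀ x : 𝓞 L, ((((s.restrictNormal L) • x : 𝓞 L) : L) : Qb) = s ((x : L) : Qb) := by
      intro x
      exact AlgEquiv.restrictNormal_commutes s L (x : L)
    have hintA : ∀ x : 𝓞 L, ((x : L) : Qb) ∈ A := fun x =>
      mem_valuationSubring_of_isIntegral A _ (plumbU_toZb L x).2
    have hin : s.restrictNormal L ∈ Ideal.inertia (L ≃ₐ[ℚ] L) P := by
      intro x
      show (s.restrictNormal L) • x - x ∈ P
      rw [hPdef, mem_lgqiCenter_iff]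
      have hsub : ((((s.restrictNormal L) • x - x : 𝓞 L) : L) : Qb) =
          s ((x : L) : Qb) - ((x : L) : Qb) := by
        rw [← hcoe]
        rfl
      rw [hsub]
      by_cases hxP : x ∈ P
      · have hx1 : ((x : L) : Qb) ∈ A.nonunits := (mem_lgqiCenter_iff L A x).mp hxP
        exact fffl_nonunits_sub A (fffl_dec_nonunits A hs hx1) hx1
      · -- `x ^ (q - 1) ≡ 1`
        have hx0 : Ideal.Quotient.mk P x ≠ 0 := fun h => hxP (Ideal.Quotient.eq_zero_iff_mem.mp h)
        have hpow : (Ideal.Quotient.mk P x) ^ (q - 1) = 1 :=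
          FiniteField.pow_card_sub_one_eq_one _ hx0
        have hmemP : x ^ (q - 1) - 1 ∈ P := by
          rw [← Ideal.Quotient.eq_zero_iff_mem, map_sub, map_pow, hpow, map_one, sub_self]
        have hmem' : (((x : L) : Qb)) ^ (q - 1) - 1 ∈ A.nonunits := by
          have := (mem_lgqiCenter_iff L A _).mp hmemP
          simpa using this
        obtain ⟨j, hj⟩ := fffl_exists_pow_sub_mem A hn hζ (hintA x) hmem'
        have hj' := fffl_dec_nonunits A hs hj
        rw [map_sub, map_pow, hsζ] at hj'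
        have := fffl_nonunits_sub A hj' hj
        rwa [sub_sub_sub_cancel_right] at this
    obtain ⟨τ, hτ, hτL⟩ := sqdi_inertia_lift L A hℓ hA (s.restrictNormal L) hin
    exact ⟨τ, hτ, hτL⟩

end Level

/-! ### the main statement -/

section Main

theorem fffl_restrictNormal_eq {L : IntermediateField ℚ Qb} [Normal ℚ L] {τ s : Qb ≃ₐ[ℚ] Qb}
    (h : τ.restrictNormal L = s.restrictNormal L) {x : Qb} (hx : x ∈ L) : τ x = s x := by
  have h1 := AlgEquiv.restrictNormal_commutes τ L ⟨x, hx⟩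
  have h2 := AlgEquiv.restrictNormal_commutes s L ⟨x, hx⟩
  rw [h] at h1
  exact h1.symm.trans h2

theorem fffl_exists_normal_ge {K L : Type*} [Field K] [Field L] [Algebra K L] [Normal K L]
    (E : IntermediateField K L) [FiniteDimensional K E] :
    ∃ E' : IntermediateField K L, E ≤ E' ∧ FiniteDimensional K E' ∧ Normal K E' :=
  ⟨IntermediateField.normalClosure K E L, IntermediateField.le_normalClosure E, inferInstance,
    inferInstance⟩

/-- a finite Galois extension of `ℚ` inside `ℚ̄` containing a given finite-dimensional field and a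
given finite set. -/
theorem fffl_exists_galois (E : IntermediateField ℚ Qb) [FiniteDimensional ℚ E] (S : Set Qb)
    (hS : S.Finite) :
    ∃ L : IntermediateField ℚ Qb, E ≤ L ∧ S ⊆ L ∧ FiniteDimensional ℚ L ∧ IsGalois ℚ L := by
  haveI : Algebra.IsAlgebraic ℚ Qb := AlgebraicClosure.isAlgebraic ℚ
  haveI : IsAlgClosure ℚ Qb := ⟨inferInstance, inferInstance⟩
  haveI : Normal ℚ Qb := IsAlgClosure.normal ℚ Qb
  haveI : Finite S := hS.to_subtype
  haveI : FiniteDimensional ℚ (IntermediateField.adjoin ℚ S) :=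
    IntermediateField.finiteDimensional_adjoin fun x _ => (Algebra.IsAlgebraic.isAlgebraic x).isIntegral
  haveI : FiniteDimensional ℚ ↥(E ⊔ IntermediateField.adjoin ℚ S) :=
    IntermediateField.finiteDimensional_sup E (IntermediateField.adjoin ℚ S)
  obtain ⟨L, h1, h2, h3⟩ := fffl_exists_normal_ge (E ⊔ IntermediateField.adjoin ℚ S)
  refine ⟨L, le_sup_left.trans h1,
    fun x hx => h1 ((le_sup_right : _ ≤ E ⊔ IntermediateField.adjoin ℚ S)
        (IntermediateField.subset_adjoin ℚ S hx)), h2, ?_⟩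
  have h4 : (DivisionRing.toRatAlgebra : Algebra ℚ L) = L.algebra' := Subsingleton.elim _ _
  rw [h4]
  have : Algebra.IsSeparable ℚ L := inferInstance
  exact ⟨⟩

/-- **A4a in helper23's literal** (`FF/Desc/Leaves.lean`): for every finite `E / ℚ` there is a root of
unity `ζ` of order prime to `ℓ` such that every `σ ∈ D` fixing `ζ` agrees on `E` with an element of
`I`. -/
theorem fffl_level {ℓ : ℕ} (hℓ : ℓ.Prime) (A : ValuationSubring Qb) (hA : A.LiesOverPrime ℓ) :
    FfdsLevelSpec ℓ A := by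
  intro E hE
  haveI := hE
  obtain ⟨L, hEL, -, hLfin, hLgal⟩ := fffl_exists_galois E ∅ Set.finite_empty
  haveI := hLfin
  haveI := hLgal
  obtain ⟨n, ζ, hn, hℓn, hζ, hlift⟩ := fffl_level_galois hℓ A hA L
  refine ⟨n, ζ, hℓn, hζ, fun σ hσ hσζ => ?_⟩
  obtain ⟨τ, hτ, hτL⟩ := hlift σ hσ hσζ
  exact ⟨τ, hτ, fun x hx => (fffl_restrictNormal_eq hτL (hEL hx)).symm⟩

/-- **A4a, module form**: finitely many `I`-equivariant functions on a finite continuous Galois
set are `D_ζ`-equivariant for a root of unity `ζ` of order prime to `ℓ`. -/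
theorem fffl_main {ℓ : ℕ} (hℓ : ℓ.Prime) (A : ValuationSubring Qb) (hA : A.LiesOverPrime ℓ)
    {M : Type*} [Finite M] (act : (Qb ≃ₐ[ℚ] Qb) → M → M)
    (hmul : ∀ σ τ m, act (σ * τ) m = act σ (act τ m))
    (hcont : ∀ m : M, ∃ E : IntermediateField ℚ Qb, FiniteDimensional ℚ E ∧
      ∀ σ ∈ E.fixingSubgroup, act σ m = m)
    (Gen : Set (M → Qb)) (hfin : Gen.Finite)
    (hequiv : ∀ φ ∈ Gen, ∀ s ∈ A.inertiaSubgroupIn ℚ, ∀ m, φ (act s m) = s (φ m)) :
    ∃ (n : ℕ) (ζ : Qb), 0 < n ∧ ¬ ℓ ∣ n ∧ IsPrimitiveRoot ζ n ∧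
      ∀ φ ∈ Gen, ∀ s ∈ A.decompositionSubgroup ℚ, s ζ = ζ → ∀ m, φ (act s m) = s (φ m) := by
  classical
  choose E hE hEfix using hcont
  haveI : ∀ m, FiniteDimensional ℚ (E m) := hE
  haveI : FiniteDimensional ℚ ↥(⨆ m, E m) := IntermediateField.finiteDimensional_iSup_of_finite
  have hS : (⋃ φ ∈ Gen, Set.range φ).Finite := hfin.biUnion fun φ _ => Set.finite_range φ
  obtain ⟨L, hEL, hSL, hLfin, hLgal⟩ := fffl_exists_galois (⨆ m, E m) _ hS
  haveI := hLfin
  haveI := hLgal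
  obtain ⟨n, ζ, hn, hℓn, hζ, hlift⟩ := fffl_level_galois hℓ A hA L
  refine ⟨n, ζ, hn, hℓn, hζ, ?_⟩
  intro φ hφ s hs hsζ m
  obtain ⟨τ, hτ, hτL⟩ := hlift s hs hsζ
  have hval : φ m ∈ L := hSL (Set.mem_biUnion hφ (Set.mem_range_self m))
  have hact : act s m = act τ m := by
    have h1 : τ⁻¹ * s ∈ (E m).fixingSubgroup := by
      rw [IntermediateField.mem_fixingSubgroup_iff]
      intro x hx
      have hxL : x ∈ L := hEL ((le_iSup E m) hx)
      have h2 : τ x = s x := fffl_restrictNormal_eq hτL hxL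
      rw [AlgEquiv.mul_apply, ← h2]
      exact τ.symm_apply_apply x
    have h3 : s = τ * (τ⁻¹ * s) := by group
    rw [h3, hmul, hEfix m _ h1]
  rw [hact, hequiv φ hφ τ hτ m]
  exact fffl_restrictNormal_eq hτL hval

/-- finitely many `I`-fixed elements of `ℚ̄` are fixed by `D_ζ`. -/
theorem fffl_const {ℓ : ℕ} (hℓ : ℓ.Prime) (A : ValuationSubring Qb) (hA : A.LiesOverPrime ℓ)
    (C : Set Qb) (hC : C.Finite) (hfix : ∀ w ∈ C, ∀ s ∈ A.inertiaSubgroupIn ℚ, s w = w) :
    ∃ (n : ℕ) (ζ : Qb), 0 < n ∧ ¬ ℓ ∣ n ∧ IsPrimitiveRoot ζ n ∧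
      ∀ w ∈ C, ∀ s ∈ A.decompositionSubgroup ℚ, s ζ = ζ → s w = w := by
  obtain ⟨n, ζ, hn, hℓn, hζ, h⟩ := fffl_main hℓ A hA (M := Unit) (fun _ m => m)
    (fun _ _ _ => rfl) (fun _ => ⟨⊥, inferInstance, fun _ _ => rfl⟩)
    ((fun w => (fun _ : Unit => w)) '' C) (hC.image _)
    (by
      rintro _ ⟨w, hw, rfl⟩ s hs m
      exact (hfix w hw s hs).symm)
  refine ⟨n, ζ, hn, hℓn, hζ, fun w hw s hs hsζ => ?_⟩
  exact (h _ ⟨w, hw, rfl⟩ s hs hsζ ()).symm

end Main

end Fermat.Agent.FF
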