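/-
FF / descent (A3+A4), the abstract lattice step (prefix `ffdn`, owner helper4; consumer helper23's
`FF/Desc/Main.lean`).

`L` a field with an action of a group `G` by field automorphisms, `M` a `G`-set with an addition,
`Rh ⊂ L` a subring (think: `𝔸 ∩ Qb^D`), `R₀ → L` a ring of `G`-fixed elements (think `ℤ_(ℓ)`) such
that the `G`-fixed elements of `Rh` come from `R₀` and `R₀` is "a valuation ring of `L^G`"
(`hscale`).  Let `Hf` be an `Rh`-algebra of functions `M → L`, finitely generated as a module,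
separating points and closed under comultiplication, and assume the DENSITY hypothesis: every
element of `Hf` is congruent modulo `p • Hf` (`p` in the Jacobson radical of `Rh`) to a
`G`-equivariant element of `Hf`.  Then the `G`-equivariant elements of `Hf` form an `R₀`-order:
finitely generated, separating, closed under comultiplication (`ffdn_main`).

Ingredients: Nakayama; Artin's lemma for equivariant functions (`ffdn_artin`); a minimal
generating set of `Hf` inside the equivariant part is `L`-linearly independent.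
-/
import Mathlib

set_option autoImplicit false

namespace Fermat.Agent.FF

open scoped BigOperators

section Artin

variable {L : Type*} [Field L] {G : Type*} [Group G] [MulSemiringAction G L] {M : Type*}

/-- `G`-equivariant functions -/
def FfdnEq (act : G → M → M) (φ : M → L) : Prop := ∀ (σ : G) (m : M), φ (act σ m) = σ • φ m

/-- the zero function is equivariant -/
theorem ffdnEq_zero (act : G → M → M) : FfdnEq act (0 : M → L) := fun σ _ => by
  rw [Pi.zero_apply, Pi.zero_apply, smul_zero]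

/-- twisting the coefficients of an expression of an equivariant function through equivariant
functions -/
theorem ffdn_expr_smul {ι : Type*} [Fintype ι] (act : G → M → M)
    (hsurj : ∀ σ, Function.Surjective (act σ)) (h : ι → M → L) (hh : ∀ i, FfdnEq act (h i))
    (φ : M → L) (hφ : FfdnEq act φ) (c : ι → L) (hc : ∑ i, c i • h i = φ) (σ : G) :
    ∑ i, (σ • c i) • h i = φ := by
  funext m
  obtain ⟨m', rfl⟩ := hsurj σ m
  have h0 : ∑ i, c i * h i m' = φ m' := by
    have := congrFun hc m'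
    simpa [Finset.sum_apply] using this
  have : (∑ i, (σ • c i) • h i) (act σ m') = σ • ∑ i, c i * h i m' := by
    rw [Finset.sum_apply, Finset.smul_sum]
    refine Finset.sum_congr rfl fun i _ => ?_
    rw [Pi.smul_apply, smul_eq_mul, hh i σ m', smul_mul']
  rw [this, h0, hφ σ m']

/-- twisting the coefficients of a relation between equivariant functions -/
theorem ffdn_relation_smul {ι : Type*} [Fintype ι] (act : G → M → M)
    (hsurj : ∀ σ, Function.Surjective (act σ)) (h : ι → M → L) (hh : ∀ i, FfdnEq act (h i))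
    (c : ι → L) (hc : ∑ i, c i • h i = 0) (σ : G) : ∑ i, (σ • c i) • h i = 0 :=
  ffdn_expr_smul act hsurj h hh 0 (ffdnEq_zero act) c hc σ

/-- the coefficients of an equivariant function in a linearly independent family of equivariant
functions are `G`-fixed -/
theorem ffdn_coeff_fixed {ι : Type*} [Fintype ι] (act : G → M → M)
    (hsurj : ∀ σ, Function.Surjective (act σ)) (h : ι → M → L) (hh : ∀ i, FfdnEq act (h i))
    (hli : LinearIndependent L h) (φ : M → L) (hφ : FfdnEq act φ) (c : ι → L)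
    (hc : ∑ i, c i • h i = φ) (σ : G) (i : ι) : σ • c i = c i := by
  have h1 := ffdn_expr_smul act hsurj h hh φ hφ c hc σ
  rw [Fintype.linearIndependent_iff] at hli
  have h2 : ∑ j, (σ • c j - c j) • h j = 0 := by
    have : ∑ j, (σ • c j - c j) • h j = ∑ j, (σ • c j) • h j - ∑ j, c j • h j := by
      rw [← Finset.sum_sub_distrib]
      refine Finset.sum_congr rfl fun j _ => ?_
      rw [sub_smul]
    rw [this, h1, hc, sub_self]
  exact sub_eq_zero.mp (hli _ h2 i)

/-- **Artin's lemma** for equivariant functions: a linear relation over `L` between equivariant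
functions gives a relation with `G`-fixed coefficients. -/
theorem ffdn_artin {ι : Type*} [Fintype ι] (act : G → M → M)
    (hsurj : ∀ σ, Function.Surjective (act σ)) (h : ι → M → L) (hh : ∀ i, FfdnEq act (h i))
    (hdep : ¬LinearIndependent L h) :
    ∃ c : ι → L, (∀ i (σ : G), σ • c i = c i) ∧ c ≠ 0 ∧ ∑ i, c i • h i = 0 := by
  classical
  rw [Fintype.not_linearIndependent_iff] at hdep
  -- the possible sizes of supports of nontrivial relations
  let P : ℕ → Prop := fun n => ∃ c : ι → L, ∑ i, c i • h i = 0 ∧ c ≠ 0 ∧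
    (Finset.univ.filter fun i => c i ≠ 0).card = n
  have hP : ∃ n, P n := by
    obtain ⟨g, hg, i, hi⟩ := hdep
    exact ⟨_, g, hg, fun h0 => hi (by rw [h0]; rfl), rfl⟩
  obtain ⟨c, hc, hc0, hcard⟩ := Nat.find_spec hP
  have hmin : ∀ n, n < Nat.find hP → ¬P n := fun n hn => Nat.find_min hP hn
  obtain ⟨i₀, hi₀⟩ : ∃ i₀, c i₀ ≠ 0 := by
    by_contra hcon
    push_neg at hcon
    exact hc0 (funext hcon)
  -- normalise
  let c' : ι → L := fun i => c i / c i₀
  have hc'rel : ∑ i, c' i • h i = 0 := by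
    have : ∑ i, c' i • h i = (c i₀)⁻¹ • ∑ i, c i • h i := by
      rw [Finset.smul_sum]
      refine Finset.sum_congr rfl fun i _ => ?_
      rw [smul_smul]
      congr 1
      change c i / c i₀ = _
      rw [div_eq_inv_mul]
    rw [this, hc, smul_zero]
  have hc'i₀ : c' i₀ = 1 := div_self hi₀
  have hsupp : ∀ i, c' i ≠ 0 → c i ≠ 0 := by
    intro i hi h0
    apply hi
    change c i / c i₀ = 0
    rw [h0, zero_div]
  refine ⟨c', ?_, fun h0 => ?_, hc'rel⟩
  · intro i σ
    by_contra hne
    -- the difference is a shorter nontrivial relation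
    let d : ι → L := fun j => σ • c' j - c' j
    have hdrel : ∑ j, d j • h j = 0 := by
      have h1 := ffdn_relation_smul act hsurj h hh c' hc'rel σ
      have : ∑ j, d j • h j = ∑ j, (σ • c' j) • h j - ∑ j, c' j • h j := by
        rw [← Finset.sum_sub_distrib]
        refine Finset.sum_congr rfl fun j _ => ?_
        rw [sub_smul]
      rw [this, h1, hc'rel, sub_zero]
    have hd0 : d ≠ 0 := by
      intro h0
      apply hne
      have := congrFun h0 i
      change σ • c' i - c' i = 0 at this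
      exact sub_eq_zero.mp this
    have hsub : (Finset.univ.filter fun j => d j ≠ 0) ⊂ Finset.univ.filter fun j => c j ≠ 0 := by
      rw [Finset.ssubset_iff_of_subset]
      · refine ⟨i₀, ?_, ?_⟩
        · rw [Finset.mem_filter]
          exact ⟨Finset.mem_univ _, hi₀⟩
        · rw [Finset.mem_filter]
          push_neg
          intro _
          change σ • c' i₀ - c' i₀ = 0
          rw [hc'i₀, smul_one, sub_self]
      · intro j hj
        rw [Finset.mem_filter] at hj ⊢
        refine ⟨Finset.mem_univ _, hsupp j fun h0 => hj.2 ?_⟩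
        change σ • c' j - c' j = 0
        rw [h0, smul_zero, sub_self]
    have hlt := Finset.card_lt_card hsub
    rw [hcard] at hlt
    exact hmin _ hlt ⟨d, hdrel, hd0, rfl⟩
  · have := congrFun h0 i₀
    rw [hc'i₀] at this
    exact one_ne_zero this

/-- products of linearly independent functions are linearly independent on the product -/
theorem ffdn_indep_prod {ι : Type*} [Fintype ι] (h : ι → M → L) (hli : LinearIndependent L h)
    (d : ι → ι → L) (hd : ∀ x y, ∑ i, ∑ j, d i j * (h i x * h j y) = 0) : ∀ i j, d i j = 0 := by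
  rw [Fintype.linearIndependent_iff] at hli
  have h1 : ∀ y i, ∑ j, d i j * h j y = 0 := by
    intro y
    apply hli
    funext x
    have := hd x y
    rw [Finset.sum_apply, Pi.zero_apply, ← this]
    refine Finset.sum_congr rfl fun i _ => ?_
    rw [Pi.smul_apply, smul_eq_mul, Finset.sum_mul]
    refine Finset.sum_congr rfl fun j _ => ?_
    ring
  intro i
  apply hli
  funext y
  rw [Finset.sum_apply, Pi.zero_apply, ← h1 y i]
  rfl

end Artin

/-! ### the lattice step -/

section Main

variable {L : Type*} [Field L] {G : Type*} [Group G] [MulSemiringAction G L]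
  {M : Type*} {R₀ : Type*} [CommRing R₀] [Algebra R₀ L]
  {S : Type*} [SetLike S L] [SubringClass S L]

/-- the base: `R₀ → Rh ⊂ L`, the `G`-fixed elements of `Rh` come from `R₀`, `R₀` is a valuation
ring of the `G`-fixed elements of `L` (`scale`), `p` lies in the Jacobson radical of `Rh`. -/
structure FfdnBase (G : Type*) [Group G] [MulSemiringAction G L] (R₀ : Type*) [CommRing R₀]
    [Algebra R₀ L] {S : Type*} [SetLike S L] [SubringClass S L] (Rh : S) (p : Rh) : Prop where
  fixed : ∀ (r : R₀) (σ : G), σ • algebraMap R₀ L r = algebraMap R₀ L r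
  mem : ∀ r : R₀, algebraMap R₀ L r ∈ Rh
  desc : ∀ x ∈ Rh, (∀ σ : G, σ • x = x) → ∃ r : R₀, algebraMap R₀ L r = x
  scale : ∀ (n : ℕ) (c : Fin n → L), (∀ i (σ : G), σ • c i = c i) → c ≠ 0 →
    ∃ i₀, c i₀ ≠ 0 ∧ ∀ i, ∃ r : R₀, algebraMap R₀ L r = c i / c i₀
  jac : p ∈ (⊥ : Ideal Rh).jacobson

/-- the `G`-equivariant part of an `Rh`-algebra of functions, as an `R₀`-algebra -/
def ffdnEqPart (act : G → M → M) {Rh : S} {p : Rh} (hB : FfdnBase G R₀ Rh p)
    (Hf : Subalgebra Rh (M → L)) : Subalgebra R₀ (M → L) where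
  carrier := {φ | φ ∈ Hf ∧ FfdnEq act φ}
  mul_mem' {a b} ha hb := ⟨Hf.mul_mem ha.1 hb.1, fun σ m => by
    rw [Pi.mul_apply, Pi.mul_apply, ha.2 σ m, hb.2 σ m, smul_mul']⟩
  add_mem' {a b} ha hb := ⟨Hf.add_mem ha.1 hb.1, fun σ m => by
    rw [Pi.add_apply, Pi.add_apply, ha.2 σ m, hb.2 σ m, smul_add]⟩
  algebraMap_mem' r := ⟨Hf.algebraMap_mem ⟨algebraMap R₀ L r, hB.mem r⟩,
    fun σ _ => (hB.fixed r σ).symm⟩

theorem mem_ffdnEqPart (act : G → M → M) {Rh : S} {p : Rh} (hB : FfdnBase G R₀ Rh p)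
    (Hf : Subalgebra Rh (M → L)) (φ : M → L) :
    φ ∈ ffdnEqPart act hB Hf ↔ φ ∈ Hf ∧ FfdnEq act φ := Iff.rfl

/-- Nakayama: under the density hypothesis the equivariant part spans -/
theorem ffdn_nakayama (act : G → M → M) {Rh : S} {p : Rh}
    (hjac : p ∈ (⊥ : Ideal Rh).jacobson)
    (Hf : Subalgebra Rh (M → L)) (hfg : Hf.toSubmodule.FG)
    (hdense : ∀ ψ ∈ Hf, ∃ φ ∈ Hf, FfdnEq act φ ∧ ∃ χ ∈ Hf, ψ - φ = p • χ) :
    Submodule.span Rh {φ | φ ∈ Hf ∧ FfdnEq act φ} = Hf.toSubmodule := by
  refine le_antisymm (Submodule.span_le.mpr fun φ hφ => hφ.1) ?_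
  refine Submodule.le_of_le_smul_of_le_jacobson_bot (I := Ideal.span {p}) hfg ?_ ?_
  · rw [Ideal.span_le]
    intro x hx
    rw [Set.mem_singleton_iff.mp hx]
    exact hjac
  · intro ψ hψ
    obtain ⟨φ, hφ, hφeq, χ, hχ, hdiff⟩ := hdense ψ hψ
    have : ψ = φ + p • χ := by rw [← hdiff]; abel
    rw [this]
    refine Submodule.add_mem_sup (Submodule.subset_span ⟨hφ, hφeq⟩) ?_
    exact Submodule.smul_mem_smul (Ideal.subset_span rfl) hχ

/-- a minimal generating family of `Hf` inside the equivariant part is `L`-linearly independent -/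
theorem ffdn_exists_basis (act : G → M → M) (hsurj : ∀ σ, Function.Surjective (act σ))
    {Rh : S} {p : Rh} (hB : FfdnBase G R₀ Rh p)
    (Hf : Subalgebra Rh (M → L)) (hfg : Hf.toSubmodule.FG)
    (hspan : Submodule.span Rh {φ | φ ∈ Hf ∧ FfdnEq act φ} = Hf.toSubmodule) :
    ∃ (n : ℕ) (h : Fin n → M → L), (∀ i, h i ∈ Hf ∧ FfdnEq act (h i)) ∧
      Submodule.span Rh (Set.range h) = Hf.toSubmodule ∧ LinearIndependent L h := by
  classical
  let E : Set (M → L) := {φ | φ ∈ Hf ∧ FfdnEq act φ}
  let P : ℕ → Prop := fun n => ∃ h : Fin n → M → L, (∀ i, h i ∈ E) ∧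
    Submodule.span Rh (Set.range h) = Hf.toSubmodule
  have hP : ∃ n, P n := by
    have hfgE : (Submodule.span Rh E).FG := by rw [hspan]; exact hfg
    obtain ⟨T₀, hT₀E, hT₀span⟩ := (Submodule.fg_span_iff_fg_span_finset_subset E).mp hfgE
    refine ⟨T₀.card, fun i => (T₀.equivFin.symm i : M → L), fun i => hT₀E (T₀.equivFin.symm i).2, ?_⟩
    have : Set.range (fun i => (T₀.equivFin.symm i : M → L)) = (T₀ : Set (M → L)) := by
      ext f
      constructor
      · rintro ⟨i, rfl⟩
        exact (T₀.equivFin.symm i).2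
      · intro hf
        exact ⟨T₀.equivFin ⟨f, hf⟩, by simp⟩
    rw [this, ← hT₀span, hspan]
  obtain ⟨h, hhE, hhspan⟩ := Nat.find_spec hP
  have hmin : ∀ n, n < Nat.find hP → ¬P n := fun n hn => Nat.find_min hP hn
  refine ⟨Nat.find hP, h, hhE, hhspan, ?_⟩
  by_contra hdep
  obtain ⟨c, hcfix, hc0, hcrel⟩ := ffdn_artin act hsurj h (fun i => (hhE i).2) hdep
  obtain ⟨j₀, hj₀, hj⟩ := hB.scale _ c hcfix hc0
  choose r hr using hj
  -- the index type is nonempty: write it as `Fin (k + 1)`
  obtain ⟨k, hk⟩ : ∃ k, Nat.find hP = k + 1 := by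
    cases hn : Nat.find hP with
    | zero => exact (Fin.elim0 (hn ▸ j₀))
    | succ k => exact ⟨k, rfl⟩
  -- generalise over the cardinality to be able to use `Fin.succAbove`
  revert h c j₀ r
  rw [hk]
  intro h hhE hhspan _ c hcfix _ hcrel j₀ hj₀ r hr
  apply hmin k (by rw [hk]; exact Nat.lt_succ_self k)
  refine ⟨fun i => h (j₀.succAbove i), fun i => hhE _, ?_⟩
  -- `h j₀` is a combination of the others with coefficients from `R₀`
  have hrel' : h j₀ + ∑ i, algebraMap R₀ L (r (j₀.succAbove i)) • h (j₀.succAbove i) = 0 := by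
    have h1 : ∑ i, (c i / c j₀) • h i = 0 := by
      have : ∑ i, (c i / c j₀) • h i = (c j₀)⁻¹ • ∑ i, c i • h i := by
        rw [Finset.smul_sum]
        refine Finset.sum_congr rfl fun i _ => ?_
        rw [smul_smul, div_eq_inv_mul]
      rw [this, hcrel, smul_zero]
    rw [Fin.sum_univ_succAbove _ j₀, div_self hj₀, one_smul] at h1
    rw [← h1]
    congr 1
    refine Finset.sum_congr rfl fun i _ => ?_
    rw [hr]
  have hj₀mem : h j₀ ∈ Submodule.span Rh (Set.range fun i => h (j₀.succAbove i)) := by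
    have : h j₀ = -∑ i, algebraMap R₀ L (r (j₀.succAbove i)) • h (j₀.succAbove i) :=
      eq_neg_of_add_eq_zero_left hrel'
    rw [this]
    refine Submodule.neg_mem _ (Submodule.sum_mem _ fun i _ => ?_)
    have hsm : algebraMap R₀ L (r (j₀.succAbove i)) • h (j₀.succAbove i)
        = (⟨algebraMap R₀ L (r (j₀.succAbove i)), hB.mem _⟩ : Rh) • h (j₀.succAbove i) := rfl
    rw [hsm]
    exact Submodule.smul_mem _ _ (Submodule.subset_span ⟨i, rfl⟩)
  refine le_antisymm ?_ ?_
  · rw [← hhspan]
    exact Submodule.span_mono (by rintro _ ⟨i, rfl⟩; exact ⟨_, rfl⟩)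
  · rw [← hhspan, Submodule.span_le]
    rintro _ ⟨i, rfl⟩
    by_cases hi : i = j₀
    · rw [hi]; exact hj₀mem
    · obtain ⟨i', rfl⟩ := Fin.exists_succAbove_eq hi
      exact Submodule.subset_span ⟨i', rfl⟩

/-- expansion of an element of the span of a finite family -/
theorem ffdn_mem_span_range {n : ℕ} {Rh : S} (h : Fin n → M → L) (φ : M → L)
    (hφ : φ ∈ Submodule.span Rh (Set.range h)) :
    ∃ c : Fin n → Rh, ∑ i, ((c i : Rh) : L) • h i = φ := by
  obtain ⟨c, hc⟩ := (Submodule.mem_span_range_iff_exists_fun Rh).mp hφ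
  exact ⟨c, hc⟩

/-- **the lattice step of the descent**, from the spanning hypothesis `Hf = Rh · (Hf)^G`. -/
theorem ffdn_main_of_span [Add M] (act : G → M → M) (hone : ∀ m, act 1 m = m)
    (hmul : ∀ (σ τ : G) (m : M), act (σ * τ) m = act σ (act τ m))
    (hadd : ∀ (σ : G) (m m' : M), act σ (m + m') = act σ m + act σ m')
    {Rh : S} {p : Rh} (hB : FfdnBase G R₀ Rh p)
    (Hf : Subalgebra Rh (M → L)) (hfg : Hf.toSubmodule.FG)
    (hsep : ∀ m m' : M, m ≠ m' → ∃ φ ∈ Hf, φ m ≠ φ m')
    (hcomul : ∀ φ ∈ Hf, FfdnEq act φ → ∃ (k : ℕ) (a b : Fin k → Hf), ∀ m m' : M,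
      φ (m + m') = ∑ i, ((a i : Hf) : M → L) m * ((b i : Hf) : M → L) m')
    (hspan : Hf.toSubmodule ≤ Submodule.span Rh {φ | φ ∈ Hf ∧ FfdnEq act φ}) :
    (ffdnEqPart act hB Hf).toSubmodule.FG ∧
      (∀ m m' : M, m ≠ m' → ∃ φ ∈ ffdnEqPart act hB Hf, φ m ≠ φ m') ∧
      (∀ φ ∈ ffdnEqPart act hB Hf, ∃ (k : ℕ) (a b : Fin k → ffdnEqPart act hB Hf), ∀ m m' : M,
        φ (m + m') = ∑ i, ((a i : ffdnEqPart act hB Hf) : M → L) m *
          ((b i : ffdnEqPart act hB Hf) : M → L) m') ∧
      Submodule.span Rh ((ffdnEqPart act hB Hf : Subalgebra R₀ (M → L)) : Set (M → L))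
        = Hf.toSubmodule := by
  classical
  have hsurj : ∀ σ, Function.Surjective (act σ) := fun σ m =>
    ⟨act σ⁻¹ m, by rw [← hmul, mul_inv_cancel, hone]⟩
  have hspanE : Submodule.span Rh {φ | φ ∈ Hf ∧ FfdnEq act φ} = Hf.toSubmodule :=
    le_antisymm (Submodule.span_le.mpr fun φ hφ => hφ.1) hspan
  obtain ⟨n, h, hhE, hhspan, hli⟩ := ffdn_exists_basis act hsurj hB Hf hfg hspanE
  have hh𝓗 : ∀ i, h i ∈ ffdnEqPart act hB Hf := fun i => hhE i
  -- every equivariant element of `Hf` is an `R₀`-combination of the `h i`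
  have hexp : ∀ φ ∈ ffdnEqPart act hB Hf, ∃ r : Fin n → R₀, ∑ i, r i • h i = φ := by
    intro φ hφ
    have hφ' : φ ∈ Submodule.span Rh (Set.range h) := by rw [hhspan]; exact hφ.1
    obtain ⟨c, hc⟩ := ffdn_mem_span_range h φ hφ'
    have hfix : ∀ i (σ : G), σ • ((c i : Rh) : L) = c i := fun i σ =>
      ffdn_coeff_fixed act hsurj h (fun i => (hhE i).2) hli φ hφ.2 (fun i => ((c i : Rh) : L)) hc σ i
    choose r hr using fun i => hB.desc (c i) (c i).2 (hfix i)
    refine ⟨r, ?_⟩
    rw [← hc]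
    refine Finset.sum_congr rfl fun i _ => ?_
    rw [← hr i, algebraMap_smul]
  refine ⟨?_, ?_, ?_, ?_⟩
  · -- finitely generated
    have : (ffdnEqPart act hB Hf).toSubmodule = Submodule.span R₀ (Set.range h) := by
      refine le_antisymm ?_ (Submodule.span_le.mpr ?_)
      · intro φ hφ
        obtain ⟨r, hr⟩ := hexp φ hφ
        rw [← hr]
        exact Submodule.sum_mem _ fun i _ => Submodule.smul_mem _ _ (Submodule.subset_span ⟨i, rfl⟩)
      · rintro _ ⟨i, rfl⟩
        exact hh𝓗 i
    rw [this]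
    exact Submodule.fg_span (Set.finite_range h)
  · -- separation
    intro m m' hmm
    obtain ⟨φ, hφ, hne⟩ := hsep m m' hmm
    have hφ' : φ ∈ Submodule.span Rh (Set.range h) := by rw [hhspan]; exact hφ
    obtain ⟨c, hc⟩ := ffdn_mem_span_range h φ hφ'
    by_contra hcon
    push_neg at hcon
    apply hne
    rw [← hc, Finset.sum_apply, Finset.sum_apply]
    refine Finset.sum_congr rfl fun i _ => ?_
    rw [Pi.smul_apply, Pi.smul_apply, hcon (h i) (hh𝓗 i)]
  · -- comultiplication
    intro φ hφ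
    obtain ⟨k, a, b, hab⟩ := hcomul φ hφ.1 hφ.2
    have ha : ∀ i, ∃ c : Fin n → Rh, ∑ t, ((c t : Rh) : L) • h t = (a i : M → L) := fun i =>
      ffdn_mem_span_range h _ (by rw [hhspan]; exact (a i).2)
    have hb : ∀ i, ∃ c : Fin n → Rh, ∑ t, ((c t : Rh) : L) • h t = (b i : M → L) := fun i =>
      ffdn_mem_span_range h _ (by rw [hhspan]; exact (b i).2)
    choose α hα using ha
    choose β hβ using hb
    let C : Fin n → Fin n → Rh := fun t s => ∑ i, α i t * β i s
    have hC : ∀ m m' : M, φ (m + m') = ∑ t, ∑ s, ((C t s : Rh) : L) * (h t m * h s m') := by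
      intro m m'
      rw [hab m m']
      have h1 : ∀ i, ((a i : Hf) : M → L) m * ((b i : Hf) : M → L) m'
          = ∑ t, ∑ s, ((α i t : Rh) : L) * ((β i s : Rh) : L) * (h t m * h s m') := by
        intro i
        rw [← hα i, ← hβ i, Finset.sum_apply, Finset.sum_apply, Finset.sum_mul_sum]
        refine Finset.sum_congr rfl fun t _ => Finset.sum_congr rfl fun s _ => ?_
        rw [Pi.smul_apply, Pi.smul_apply, smul_eq_mul, smul_eq_mul]
        ring
      rw [Finset.sum_congr rfl fun i _ => h1 i, Finset.sum_comm]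
      refine Finset.sum_congr rfl fun t _ => ?_
      rw [Finset.sum_comm]
      refine Finset.sum_congr rfl fun s _ => ?_
      rw [← Finset.sum_mul]
      congr 1
      change _ = ((∑ i, α i t * β i s : Rh) : L)
      rw [AddSubmonoidClass.coe_finset_sum]
      rfl
    -- the coefficients are fixed
    have hCfix : ∀ (σ : G) t s, σ • ((C t s : Rh) : L) = C t s := by
      intro σ
      have := ffdn_indep_prod h hli (fun t s => σ • ((C t s : Rh) : L) - C t s) ?_
      · intro t s
        exact sub_eq_zero.mp (this t s)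
      intro x y
      obtain ⟨m, rfl⟩ := hsurj σ x
      obtain ⟨m', rfl⟩ := hsurj σ y
      have h1 : ∑ t, ∑ s, σ • ((C t s : Rh) : L) * (h t (act σ m) * h s (act σ m'))
          = φ (act σ m + act σ m') := by
        rw [← hadd, hφ.2 σ (m + m'), hC m m', Finset.smul_sum]
        refine Finset.sum_congr rfl fun t _ => ?_
        rw [Finset.smul_sum]
        refine Finset.sum_congr rfl fun s _ => ?_
        rw [smul_mul', smul_mul', (hhE t).2 σ m, (hhE s).2 σ m']
      have h2 := hC (act σ m) (act σ m')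
      have : ∑ t, ∑ s, (σ • ((C t s : Rh) : L) - C t s) * (h t (act σ m) * h s (act σ m'))
          = ∑ t, ∑ s, σ • ((C t s : Rh) : L) * (h t (act σ m) * h s (act σ m'))
            - ∑ t, ∑ s, ((C t s : Rh) : L) * (h t (act σ m) * h s (act σ m')) := by
        rw [← Finset.sum_sub_distrib]
        refine Finset.sum_congr rfl fun t _ => ?_
        rw [← Finset.sum_sub_distrib]
        refine Finset.sum_congr rfl fun s _ => ?_
        rw [sub_mul]
      rw [this, h1, ← h2, sub_self]
    choose ρ hρ using fun t s => hB.desc (C t s) (C t s).2 (fun σ => hCfix σ t s)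
    refine ⟨n, fun t => ⟨h t, hh𝓗 t⟩, fun t => ⟨∑ s, ρ t s • h s,
      Subalgebra.sum_mem _ fun s _ => Subalgebra.smul_mem _ (hh𝓗 s) _⟩, fun m m' => ?_⟩
    rw [hC m m']
    refine Finset.sum_congr rfl fun t _ => ?_
    change _ = h t m * (∑ s, ρ t s • h s) m'
    rw [Finset.sum_apply, Finset.mul_sum]
    refine Finset.sum_congr rfl fun s _ => ?_
    rw [Pi.smul_apply, Algebra.smul_def, hρ t s]
    ring
  · -- span
    refine le_antisymm (Submodule.span_le.mpr fun φ hφ => hφ.1) ?_
    rw [← hhspan]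
    exact Submodule.span_mono (by rintro _ ⟨i, rfl⟩; exact hh𝓗 i)

/-- **the lattice step of the descent**, from the density congruence (Nakayama). -/
theorem ffdn_main [Add M] (act : G → M → M) (hone : ∀ m, act 1 m = m)
    (hmul : ∀ (σ τ : G) (m : M), act (σ * τ) m = act σ (act τ m))
    (hadd : ∀ (σ : G) (m m' : M), act σ (m + m') = act σ m + act σ m')
    {Rh : S} {p : Rh} (hB : FfdnBase G R₀ Rh p)
    (Hf : Subalgebra Rh (M → L)) (hfg : Hf.toSubmodule.FG)
    (hsep : ∀ m m' : M, m ≠ m' → ∃ φ ∈ Hf, φ m ≠ φ m')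
    (hcomul : ∀ φ ∈ Hf, FfdnEq act φ → ∃ (k : ℕ) (a b : Fin k → Hf), ∀ m m' : M,
      φ (m + m') = ∑ i, ((a i : Hf) : M → L) m * ((b i : Hf) : M → L) m')
    (hdense : ∀ ψ ∈ Hf, ∃ φ ∈ Hf, FfdnEq act φ ∧ ∃ χ ∈ Hf, ψ - φ = p • χ) :
    (ffdnEqPart act hB Hf).toSubmodule.FG ∧
      (∀ m m' : M, m ≠ m' → ∃ φ ∈ ffdnEqPart act hB Hf, φ m ≠ φ m') ∧
      (∀ φ ∈ ffdnEqPart act hB Hf, ∃ (k : ℕ) (a b : Fin k → ffdnEqPart act hB Hf), ∀ m m' : M,
        φ (m + m') = ∑ i, ((a i : ffdnEqPart act hB Hf) : M → L) m *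
          ((b i : ffdnEqPart act hB Hf) : M → L) m') ∧
      Submodule.span Rh ((ffdnEqPart act hB Hf : Subalgebra R₀ (M → L)) : Set (M → L))
        = Hf.toSubmodule :=
  ffdn_main_of_span act hone hmul hadd hB Hf hfg hsep hcomul
    (ffdn_nakayama act hB.jac Hf hfg hdense).ge

end Main

end Fermat.Agent.FF
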