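/-
FF / descent (A3+A4): the lattice step `ffdn_main` instantiated for `L = Qb = AlgebraicClosure ℚ`,
`G = Gal(Qb/ℚ)`, `R₀ = GaloisRep.ratLocalizedAt ℓ = ℤ_(ℓ)` (prefix `ffdn`, owner helper4).

`ffdn_base_rat` : for a subring `Rh ⊂ Qb` with `Rh ∩ ℚ = ℤ_(ℓ)` and `ℓ` in its Jacobson radical the
hypotheses `FfdnBase` hold.  `ffdn_output` : the conclusion in the literal shape of
`FfdsOutput ℓ act` (helper23's `FF/Desc/Spec.lean`) = the four hypotheses of `ffho_main`.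
-/
import Fermat.Agent.FF.Desc.Lattice
import Fermat.Prelude.Def_GaloisRep_Flat

set_option autoImplicit false

namespace Fermat.Agent.FF

open scoped BigOperators

local notation "Qb" => AlgebraicClosure ℚ
local notation "GQ" => (AlgebraicClosure ℚ) ≃ₐ[ℚ] (AlgebraicClosure ℚ)

/-- `Qb/ℚ` is Galois (spelled out: instance search does not find it by itself) -/
theorem ffdn_isGalois_Qb : IsGalois ℚ Qb := by
  haveI : Algebra.IsAlgebraic ℚ Qb := AlgebraicClosure.isAlgebraic ℚ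
  haveI : IsAlgClosure ℚ Qb := ⟨inferInstance, inferInstance⟩
  haveI : Normal ℚ Qb := IsAlgClosure.normal ℚ Qb
  infer_instance

/-- the `Gal(Qb/ℚ)`-fixed elements of `Qb` are rational -/
theorem ffdn_exists_rat_of_fixed (x : Qb) (hx : ∀ σ : GQ, σ x = x) :
    ∃ q : ℚ, algebraMap ℚ Qb q = x := by
  haveI := ffdn_isGalois_Qb
  exact (InfiniteGalois.mem_range_algebraMap_iff_fixed (k := ℚ) (K := Qb) x).mpr hx

section Rat

variable (ℓ : ℕ) [Fact ℓ.Prime]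

theorem ffdn_mem_ratLocalizedAt_iff (q : ℚ) : q ∈ GaloisRep.ratLocalizedAt ℓ ↔ ¬ℓ ∣ q.den := by
  have hp : ℓ.Prime := Fact.out
  change q.den.Coprime ℓ ↔ _
  rw [Nat.coprime_comm, hp.coprime_iff_not_dvd]

/-- nonnegative `ℓ`-adic valuation means `ℓ`-integral -/
theorem ffdn_mem_of_padicValRat_nonneg (q : ℚ) (h : 0 ≤ padicValRat ℓ q) :
    q ∈ GaloisRep.ratLocalizedAt ℓ := by
  have hp : ℓ.Prime := Fact.out
  rw [ffdn_mem_ratLocalizedAt_iff]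
  intro hdvd
  have hden : 1 ≤ padicValNat ℓ q.den := one_le_padicValNat_of_dvd q.den_pos.ne' hdvd
  have hnum : ¬(ℓ : ℤ) ∣ q.num := by
    intro hn
    have h1 : ℓ ∣ q.num.natAbs := Int.natCast_dvd.mp hn
    have h2 : ℓ ∣ Nat.gcd q.num.natAbs q.den := Nat.dvd_gcd h1 hdvd
    rw [q.reduced] at h2
    exact hp.one_lt.ne' (Nat.dvd_one.mp h2)
  have hnum0 : padicValInt ℓ q.num = 0 := padicValInt.eq_zero_of_not_dvd hnum
  have : padicValRat ℓ q = (padicValInt ℓ q.num : ℤ) - (padicValNat ℓ q.den : ℤ) := rfl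
  rw [this, hnum0] at h
  omega

/-- `ℤ_(ℓ)` is a valuation ring of `ℚ`: a finite nonzero family can be scaled into `ℤ_(ℓ)` with
one coefficient equal to `1` -/
theorem ffdn_rat_scale (n : ℕ) (q : Fin n → ℚ) (hq : q ≠ 0) :
    ∃ i₀, q i₀ ≠ 0 ∧ ∀ i, q i / q i₀ ∈ GaloisRep.ratLocalizedAt ℓ := by
  classical
  have hne : (Finset.univ.filter fun i => q i ≠ 0).Nonempty := by
    by_contra hcon
    rw [Finset.not_nonempty_iff_eq_empty] at hcon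
    apply hq
    funext i
    by_contra hi
    have : i ∈ Finset.univ.filter fun i => q i ≠ 0 := by
      rw [Finset.mem_filter]; exact ⟨Finset.mem_univ _, hi⟩
    rw [hcon] at this
    exact absurd this (Finset.notMem_empty _)
  obtain ⟨i₀, hi₀, hmin⟩ := Finset.exists_min_image _ (fun i => padicValRat ℓ (q i)) hne
  rw [Finset.mem_filter] at hi₀
  refine ⟨i₀, hi₀.2, fun i => ?_⟩
  by_cases hi : q i = 0
  · rw [hi, zero_div]
    exact Subring.zero_mem _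
  · apply ffdn_mem_of_padicValRat_nonneg
    rw [padicValRat.div hi hi₀.2]
    have := hmin i (by rw [Finset.mem_filter]; exact ⟨Finset.mem_univ _, hi⟩)
    change padicValRat ℓ (q i₀) ≤ padicValRat ℓ (q i) at this
    omega

/-- the base hypotheses for `Qb`, `Gal(Qb/ℚ)`, `ℤ_(ℓ)` and a subring `Rh` of `Qb` with
`Rh ∩ ℚ = ℤ_(ℓ)` and `ℓ ∈ rad Rh` -/
theorem ffdn_base_rat {S : Type*} [SetLike S Qb] [SubringClass S Qb] (Rh : S)
    (hmem : ∀ q : ℚ, q ∈ GaloisRep.ratLocalizedAt ℓ → algebraMap ℚ Qb q ∈ Rh)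
    (hcap : ∀ q : ℚ, algebraMap ℚ Qb q ∈ Rh → q ∈ GaloisRep.ratLocalizedAt ℓ)
    (p : Rh) (hjac : p ∈ (⊥ : Ideal Rh).jacobson) :
    FfdnBase GQ (GaloisRep.ratLocalizedAt ℓ) Rh p where
  fixed r σ := by
    change σ (algebraMap ℚ Qb (r : ℚ)) = algebraMap ℚ Qb (r : ℚ)
    exact σ.commutes _
  mem r := hmem r r.2
  desc x hx hfix := by
    obtain ⟨q, rfl⟩ := ffdn_exists_rat_of_fixed x (fun σ => hfix σ)
    exact ⟨⟨q, hcap q hx⟩, rfl⟩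
  scale n c hc hc0 := by
    have hq : ∀ i, ∃ q : ℚ, algebraMap ℚ Qb q = c i := fun i =>
      ffdn_exists_rat_of_fixed (c i) (fun σ => hc i σ)
    choose q hq using hq
    have hq0 : q ≠ 0 := by
      intro h0
      apply hc0
      funext i
      rw [← hq i, h0]
      exact map_zero _
    obtain ⟨i₀, hi₀, hi⟩ := ffdn_rat_scale ℓ n q hq0
    refine ⟨i₀, ?_, fun i => ⟨⟨q i / q i₀, hi i⟩, ?_⟩⟩
    · rw [← hq i₀]
      exact (map_ne_zero _).mpr hi₀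
    · change algebraMap ℚ Qb (q i / q i₀) = _
      rw [map_div₀, hq i, hq i₀]
  jac := hjac

variable {M : Type*} [AddCommGroup M]

/-- **the lattice step, concrete form**: conclusion = `FfdsOutput ℓ act` unfolded. -/
theorem ffdn_output (act : GQ → M → M) (hone : ∀ m, act 1 m = m)
    (hmul : ∀ (σ τ : GQ) (m : M), act (σ * τ) m = act σ (act τ m))
    (hadd : ∀ (σ : GQ) (m m' : M), act σ (m + m') = act σ m + act σ m')
    {S : Type*} [SetLike S Qb] [SubringClass S Qb] (Rh : S)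
    (hmem : ∀ q : ℚ, q ∈ GaloisRep.ratLocalizedAt ℓ → algebraMap ℚ Qb q ∈ Rh)
    (hcap : ∀ q : ℚ, algebraMap ℚ Qb q ∈ Rh → q ∈ GaloisRep.ratLocalizedAt ℓ)
    (p : Rh) (hjac : p ∈ (⊥ : Ideal Rh).jacobson)
    (Hf : Subalgebra Rh (M → Qb)) (hfg : Hf.toSubmodule.FG)
    (hsep : ∀ m m' : M, m ≠ m' → ∃ φ ∈ Hf, φ m ≠ φ m')
    (hcomul : ∀ φ ∈ Hf, (∀ (σ : GQ) (m : M), φ (act σ m) = σ (φ m)) →
      ∃ (k : ℕ) (a b : Fin k → Hf), ∀ m m' : M,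
        φ (m + m') = ∑ i, ((a i : Hf) : M → Qb) m * ((b i : Hf) : M → Qb) m')
    (hdense : ∀ ψ ∈ Hf, ∃ φ ∈ Hf, (∀ (σ : GQ) (m : M), φ (act σ m) = σ (φ m)) ∧
      ∃ χ ∈ Hf, ψ - φ = p • χ) :
    ∃ 𝓗 : Subalgebra (GaloisRep.ratLocalizedAt ℓ) (M → Qb),
      𝓗.toSubmodule.FG ∧ (∀ φ ∈ 𝓗, ∀ (σ : GQ) (m : M), φ (act σ m) = σ (φ m)) ∧
      (∀ m m' : M, m ≠ m' → ∃ φ ∈ 𝓗, φ m ≠ φ m') ∧
      (∀ φ ∈ 𝓗, ∃ (k : ℕ) (a b : Fin k → ↥𝓗), ∀ m m',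
        φ (m + m') = ∑ i, (a i).1 m * (b i).1 m') := by
  have hB := ffdn_base_rat ℓ Rh hmem hcap p hjac
  obtain ⟨h1, h2, h3, _⟩ := ffdn_main act hone hmul hadd hB Hf hfg hsep hcomul hdense
  exact ⟨ffdnEqPart act hB Hf, h1, fun φ hφ => hφ.2, h2, h3⟩

/-- variant which also records what `𝓗` is: the equivariant elements of `Hf`, spanning `Hf` -/
theorem ffdn_output' (act : GQ → M → M) (hone : ∀ m, act 1 m = m)
    (hmul : ∀ (σ τ : GQ) (m : M), act (σ * τ) m = act σ (act τ m))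
    (hadd : ∀ (σ : GQ) (m m' : M), act σ (m + m') = act σ m + act σ m')
    {S : Type*} [SetLike S Qb] [SubringClass S Qb] (Rh : S)
    (hmem : ∀ q : ℚ, q ∈ GaloisRep.ratLocalizedAt ℓ → algebraMap ℚ Qb q ∈ Rh)
    (hcap : ∀ q : ℚ, algebraMap ℚ Qb q ∈ Rh → q ∈ GaloisRep.ratLocalizedAt ℓ)
    (p : Rh) (hjac : p ∈ (⊥ : Ideal Rh).jacobson)
    (Hf : Subalgebra Rh (M → Qb)) (hfg : Hf.toSubmodule.FG)
    (hsep : ∀ m m' : M, m ≠ m' → ∃ φ ∈ Hf, φ m ≠ φ m')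
    (hcomul : ∀ φ ∈ Hf, (∀ (σ : GQ) (m : M), φ (act σ m) = σ (φ m)) →
      ∃ (k : ℕ) (a b : Fin k → Hf), ∀ m m' : M,
        φ (m + m') = ∑ i, ((a i : Hf) : M → Qb) m * ((b i : Hf) : M → Qb) m')
    (hdense : ∀ ψ ∈ Hf, ∃ φ ∈ Hf, (∀ (σ : GQ) (m : M), φ (act σ m) = σ (φ m)) ∧
      ∃ χ ∈ Hf, ψ - φ = p • χ) :
    ∃ 𝓗 : Subalgebra (GaloisRep.ratLocalizedAt ℓ) (M → Qb),
      (∀ φ, φ ∈ 𝓗 ↔ φ ∈ Hf ∧ ∀ (σ : GQ) (m : M), φ (act σ m) = σ (φ m)) ∧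
      Submodule.span Rh (𝓗 : Set (M → Qb)) = Hf.toSubmodule ∧
      𝓗.toSubmodule.FG ∧
      (∀ m m' : M, m ≠ m' → ∃ φ ∈ 𝓗, φ m ≠ φ m') ∧
      (∀ φ ∈ 𝓗, ∃ (k : ℕ) (a b : Fin k → ↥𝓗), ∀ m m',
        φ (m + m') = ∑ i, (a i).1 m * (b i).1 m') := by
  have hB := ffdn_base_rat ℓ Rh hmem hcap p hjac
  obtain ⟨h1, h2, h3, h4⟩ := ffdn_main act hone hmul hadd hB Hf hfg hsep hcomul hdense
  exact ⟨ffdnEqPart act hB Hf, fun φ => Iff.rfl, h4, h1, h2, h3⟩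

end Rat

end Fermat.Agent.FF
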