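/-
FF / descent (A3+A4): helper23's step (F) `FfdsFinalStep` (`FF/Desc/Steps.lean`) from the abstract
lattice step `ffdn_main_of_span` (prefix `ffdn`, owner helper4).
-/
import Fermat.Agent.FF.Desc.Steps
import Fermat.Agent.FF.Desc.LatticeRat

set_option autoImplicit false

namespace Fermat.Agent.FF

open scoped BigOperators

local notation "Qb" => AlgebraicClosure ℚ
local notation "G" => (AlgebraicClosure ℚ) ≃ₐ[ℚ] (AlgebraicClosure ℚ)

/-- **step (F) of the descent**: an `A`-valued, module-finite, `Δ`-closed, separating `A`-algebra of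
functions which is spanned over `A` by its `G`-invariant elements gives the output order over
`ℤ_(ℓ)`. -/
theorem ffdn_final {ℓ : ℕ} [Fact ℓ.Prime] (A : ValuationSubring Qb) (hA : A.LiesOverPrime ℓ)
    {M : Type} [AddCommGroup M] {act : G → M → M} (hact : FfdsAct act) :
    FfdsFinalStep ℓ A M act := by
  have hℓ : ℓ.Prime := Fact.out
  intro 𝔅 _ hfg hcom hsep hspan
  have hB : FfdnBase G (GaloisRep.ratLocalizedAt ℓ) A (0 : A) :=
    ffdn_base_rat ℓ A (fun q hq => ffds_ratLoc_mem hℓ hA hq) (fun q hq => ffds_mem_ratLoc hℓ hA hq)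
      0 (Ideal.zero_mem _)
  have heq : ∀ φ : M → Qb, φ ∈ ffdsFix act (Set.univ : Set G) ↔ FfdnEq act φ := by
    intro φ
    rw [mem_ffdsFix_iff hact]
    exact ⟨fun h σ m => h σ (Set.mem_univ _) m, fun h σ _ m => h σ m⟩
  obtain ⟨h1, h2, h3, _⟩ := ffdn_main_of_span act hact.one hact.mul hact.add hB 𝔅 hfg hsep
    (fun φ hφ _ => by
      obtain ⟨k, a, b, ha, hb, hab⟩ := (hcom φ hφ).to_fin
      exact ⟨k, fun i => ⟨a i, ha i⟩, fun i => ⟨b i, hb i⟩, hab⟩)
    (hspan.trans (Submodule.span_mono fun φ hφ => ⟨hφ.1, (heq φ).mp hφ.2⟩))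
  exact ⟨ffdnEqPart act hB 𝔅, h1, fun φ hφ σ m => hφ.2 σ m, h2, h3⟩

end Fermat.Agent.FF
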