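/-
PROGRAM FF (S19 + S32), leaf (0)(b) descent, arithmetic leaf VDM (helper29, prefix `ffdv`):
exact finite unramified descent `D_ζ ⟹ D`, arithmetic part.  `M`-free.

For a root of unity `ζ` of order `n` prime to `ℓ`: coset representatives `s_j` of `D / D_ζ`
(`D` the decomposition group of `A`, `D_ζ` the stabiliser of `ζ`; the `s_j ζ` are the pairwise
distinct `D`-conjugates of `ζ`) and LAGRANGE coefficients `c_k ∈ W = ffdsW A` with
`∑_k c_k (s_j ζ)^k = δ_{j, j₀}` (`s_{j₀} ζ = ζ`).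

Use (helper23, `FF/Desc`): for `ψ` invariant under `D_ζ` the functions
`T_k(ψ) := ∑_j (s_j ζ)^k • (s_j.ψ)` are `D`-invariant and `ψ = ∑_k c_k T_k(ψ)`.
-/
import Fermat.Agent.FF.Desc.Spec
import Fermat.Agent.FF.Rat.Inert

set_option autoImplicit false
set_option linter.unusedSectionVars false
set_option linter.unusedVariables false

noncomputable section

namespace Fermat.Agent.FF

open Polynomial

local notation "Qb" => AlgebraicClosure ℚ
local notation "G" => (AlgebraicClosure ℚ) ≃ₐ[ℚ] (AlgebraicClosure ℚ)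

/-- (A4-vdm) exact finite unramified descent, arithmetic part. -/
def FfdsVdmSpec (ℓ : ℕ) (A : ValuationSubring Qb) : Prop :=
  ∀ (n : ℕ) (ζ : Qb), ¬ ℓ ∣ n → IsPrimitiveRoot ζ n →
    ∃ (r : ℕ) (s : Fin r → G) (c : Fin r → Qb) (j₀ : Fin r),
      (∀ j, s j ∈ A.decompositionSubgroup ℚ) ∧ s j₀ ζ = ζ ∧
      (∀ σ : G, σ ∈ A.decompositionSubgroup ℚ → ∃ j, σ ζ = s j ζ) ∧
      (∀ j j', s j ζ = s j' ζ → j = j') ∧
      (∀ k, c k ∈ ffdsW A) ∧
      ∀ j, ∑ k : Fin r, c k * (s j ζ) ^ (k : ℕ) = if j = j₀ then 1 else 0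

section Roots

variable {ℓ : ℕ} [Fact ℓ.Prime] {A : ValuationSubring Qb} (hA : A.LiesOverPrime ℓ)
  {n : ℕ} (hn : ¬ ℓ ∣ n)

include hA hn

theorem ffdv_n_pos : 0 < n := Nat.pos_of_ne_zero fun h => hn (h ▸ dvd_zero ℓ)

/-- roots of unity of order prime to `ℓ` lie in `W`. -/
theorem ffdv_root_mem_W {x : Qb} (hx : x ^ n = 1) : x ∈ ffdsW A := by
  refine ⟨ffrt_root_mem (ffdv_n_pos hA hn) hx, fun σ hσ => ?_⟩
  exact ffrt_inert_fix_root (ffrt_inert_of_mem hσ) (ffdv_n_pos hA hn)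
    (ffrt_valuation_natCast_of_not_dvd hA hn) hx

/-- the difference of two distinct roots of unity of order prime to `ℓ` is a unit of `A`. -/
theorem ffdv_sub_valuation {x y : Qb} (hx : x ^ n = 1) (hy : y ^ n = 1) (hxy : x ≠ y) :
    A.valuation (x - y) = 1 := by
  have hn0 := ffdv_n_pos hA hn
  have hx0 : x ≠ 0 := by
    rintro rfl
    rw [zero_pow hn0.ne'] at hx
    exact zero_ne_one hx
  have h1 : x - y = x * (1 - y * x⁻¹) := by field_simp
  have h2 : (y * x⁻¹) ^ n = 1 := by rw [mul_pow, inv_pow, hx, hy, inv_one, mul_one]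
  have h3 : y * x⁻¹ ≠ 1 := by
    intro h
    apply hxy
    rw [mul_inv_eq_one₀ hx0] at h
    exact h.symm
  rw [h1, map_mul, ffrt_root_valuation hn0 hx,
    ffrt_one_sub_root_valuation hn0 (ffrt_valuation_natCast_of_not_dvd hA hn) h2 h3, mul_one]

/-- the inverse of the difference of two distinct roots of unity of order prime to `ℓ` lies
in `W`. -/
theorem ffdv_sub_inv_mem_W {x y : Qb} (hx : x ^ n = 1) (hy : y ^ n = 1) (hxy : x ≠ y) :
    (x - y)⁻¹ ∈ ffdsW A := by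
  refine ⟨?_, fun σ hσ => ?_⟩
  · rw [← A.valuation_le_one_iff, map_inv₀, ffdv_sub_valuation hA hn hx hy hxy, inv_one]
  · rw [map_inv₀, map_sub, (ffdv_root_mem_W hA hn hx).2 σ hσ, (ffdv_root_mem_W hA hn hy).2 σ hσ]

end Roots


/-- **leaf VDM.** -/
theorem ffdv_vdm {ℓ : ℕ} (hℓ : ℓ.Prime) (A : ValuationSubring Qb) (hA : A.LiesOverPrime ℓ) :
    FfdsVdmSpec ℓ A := by
  classical
  have : Fact ℓ.Prime := ⟨hℓ⟩
  intro n ζ hn hζ
  have hn0 := ffdv_n_pos hA hn
  have : NeZero n := ⟨hn0.ne'⟩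
  -- the `D`-orbit of `ζ`
  let O : Finset Qb := ((Finset.range n).image fun i => ζ ^ i).filter
    fun x => ∃ σ : G, σ ∈ A.decompositionSubgroup ℚ ∧ σ ζ = x
  have hO : ∀ x, x ∈ O ↔ ∃ σ : G, σ ∈ A.decompositionSubgroup ℚ ∧ σ ζ = x := by
    intro x
    simp only [O, Finset.mem_filter, Finset.mem_image, Finset.mem_range]
    constructor
    · rintro ⟨-, h⟩
      exact h
    · rintro ⟨σ, hσ, rfl⟩
      refine ⟨?_, σ, hσ, rfl⟩
      have h1 : (σ ζ) ^ n = 1 := by rw [← map_pow, hζ.pow_eq_one, map_one]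
      obtain ⟨i, hi, h2⟩ := hζ.eq_pow_of_pow_eq_one h1
      exact ⟨i, hi, h2⟩
  have hOroot : ∀ x ∈ O, x ^ n = 1 := by
    intro x hx
    obtain ⟨σ, -, rfl⟩ := (hO x).mp hx
    rw [← map_pow, hζ.pow_eq_one, map_one]
  let e : Fin O.card ≃ O := O.equivFin.symm
  have hs : ∀ j : Fin O.card, ∃ σ : G, σ ∈ A.decompositionSubgroup ℚ ∧ σ ζ = (e j : Qb) :=
    fun j => (hO _).mp (e j).2
  choose s hsD hsζ using hs
  have hζO : ζ ∈ O := (hO ζ).mpr ⟨1, one_mem _, rfl⟩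
  let j₀ : Fin O.card := e.symm ⟨ζ, hζO⟩
  have hj₀ : s j₀ ζ = ζ := by
    rw [hsζ]
    simp only [j₀, Equiv.apply_symm_apply]
  have hinj : ∀ j j', s j ζ = s j' ζ → j = j' := by
    intro j j' h
    rw [hsζ, hsζ] at h
    exact e.injective (Subtype.ext h)
  have hvinj : Set.InjOn (fun j => s j ζ) (Finset.univ : Finset (Fin O.card)) :=
    fun j _ j' _ h => hinj j j' h
  have hroot : ∀ j, (s j ζ) ^ n = 1 := fun j => by
    rw [← map_pow, hζ.pow_eq_one, map_one]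
  let L : Qb[X] := Lagrange.basis Finset.univ (fun j => s j ζ) j₀
  have hLdeg : L.natDegree < O.card := by
    have h1 : L.natDegree = (Finset.univ : Finset (Fin O.card)).card - 1 :=
      Lagrange.natDegree_basis hvinj (Finset.mem_univ j₀)
    rw [h1, Finset.card_univ, Fintype.card_fin]
    have := j₀.pos
    omega
  have hLmem : L ∈ lifts (ffdsW A).subtype := by
    change (∏ j ∈ Finset.univ.erase j₀, Lagrange.basisDivisor (s j₀ ζ) (s j ζ)) ∈ _
    refine prod_mem fun j hj => ?_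
    have hne : s j₀ ζ ≠ s j ζ := fun h => (Finset.ne_of_mem_erase hj) (hinj _ _ h.symm)
    change C (s j₀ ζ - s j ζ)⁻¹ * (X - C (s j ζ)) ∈ _
    refine mul_mem ?_ ?_
    · exact C_mem_lifts (ffdsW A).subtype
        ⟨_, ffdv_sub_inv_mem_W hA hn (hroot j₀) (hroot j) hne⟩
    · rw [sub_eq_add_neg, ← C_neg]
      refine add_mem (X_mem_lifts _) ?_
      exact C_mem_lifts (ffdsW A).subtype
        ⟨_, neg_mem (ffdv_root_mem_W hA hn (hroot j))⟩
  refine ⟨O.card, s, fun k => L.coeff k, j₀, hsD, hj₀, ?_, hinj, ?_, ?_⟩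
  · intro σ hσ
    have h1 : σ ζ ∈ O := (hO _).mpr ⟨σ, hσ, rfl⟩
    refine ⟨e.symm ⟨σ ζ, h1⟩, ?_⟩
    rw [hsζ, Equiv.apply_symm_apply]
  · intro k
    obtain ⟨w, hw⟩ := (lifts_iff_coeff_lifts L).mp hLmem k
    change L.coeff (k : ℕ) ∈ ffdsW A
    rw [← hw]
    exact w.2
  · intro j
    rw [Fin.sum_univ_eq_sum_range (fun k => L.coeff k * (s j ζ) ^ k) O.card,
      ← eval_eq_sum_range' hLdeg]
    by_cases hj : j = j₀
    · rw [if_pos hj, hj]
      exact Lagrange.eval_basis_self (v := fun j => s j ζ) hvinj (Finset.mem_univ j₀)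
    · rw [if_neg hj]
      exact Lagrange.eval_basis_of_ne (v := fun j => s j ζ) (Ne.symm hj) (Finset.mem_univ j)

end Fermat.Agent.FF
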