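/-
PROGRAM FF (S19 + S32), leaf (0)(b) descent, module-level step (V) (helper29, prefix `ffdv`):
unramified descent `I → D` for `A`-algebras of functions.

Every inertia-invariant element `ψ` of a `D`-stable `A`-algebra `𝔅` of functions `M → Qb` is an
`A`-linear combination of `D`-invariant elements of `𝔅`:
`ψ = ∑_k c_k • T_k`, `T_k = ∑_j (s_j ζ)^k • (s_j · ψ)`, with `(s, c)` the coset representatives and
LAGRANGE coefficients of `FfdsVdmSpec` for the root of unity `ζ` of `FfdsLevelSpec`.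
-/
import Fermat.Agent.FF.Desc.Steps
import Fermat.Agent.FF.Desc.Leaves
import Fermat.Agent.FF.Desc.Vdm

set_option autoImplicit false
set_option linter.unusedSectionVars false
set_option linter.unusedVariables false

noncomputable section

namespace Fermat.Agent.FF

local notation "Qb" => AlgebraicClosure ℚ
local notation "G" => (AlgebraicClosure ℚ) ≃ₐ[ℚ] (AlgebraicClosure ℚ)

/-- an element of `D` fixing the root of unity of the level leaf fixes `ψ`. -/
theorem ffdv_fix_of_level {A : ValuationSubring Qb} {M : Type} [AddCommGroup M]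
    {act : G → M → M} (hact : FfdsAct act) {E : IntermediateField ℚ Qb} {ψ : M → Qb}
    (hM : ∀ γ : G, γ ∈ E.fixingSubgroup → ∀ m, act γ m = m) (hψE : ∀ m, ψ m ∈ E)
    (hψI : ψ ∈ ffdsFix act (A.inertiaSubgroupIn ℚ : Set G)) {σ τ : G}
    (hτ : τ ∈ A.inertiaSubgroupIn ℚ) (hστ : ∀ x ∈ E, σ x = τ x) : ffdsSm act σ ψ = ψ := by
  have hγ : τ⁻¹ * σ ∈ E.fixingSubgroup := by
    rw [IntermediateField.mem_fixingSubgroup_iff]
    intro x hx
    rw [AlgEquiv.mul_apply, hστ x hx]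
    exact τ.symm_apply_apply x
  have h1 : σ = τ * (τ⁻¹ * σ) := by group
  rw [h1, ffdsSm_mul hact, ffdsSm_eq_of_fixing hact hM hψE hγ]
  exact hψI τ hτ

/-- **(V)** unramified descent `I → D`. -/
theorem ffdv_step {ℓ : ℕ} (hℓ : ℓ.Prime) (A : ValuationSubring Qb) (hA : A.LiesOverPrime ℓ)
    {M : Type} [AddCommGroup M] [Finite M] {act : G → M → M} (hact : FfdsAct act)
    (hLev : FfdsLevelSpec ℓ A) (hVdm : FfdsVdmSpec ℓ A) : FfdsVdmStep A M act := by
  classical
  intro 𝔅 hstab ψ hψ𝔅 hψI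
  obtain ⟨E, hEfin, hEact, hEψ⟩ := ffds_exists_field hact ψ
  obtain ⟨n, ζ, hn, hζ, hlev⟩ := hLev E hEfin
  have hn0 : n ≠ 0 := by
    rintro rfl
    exact hn (dvd_zero _)
  -- elements of `D` fixing `ζ` fix `ψ`
  have hfix : ∀ σ : G, σ ∈ A.decompositionSubgroup ℚ → σ ζ = ζ → ffdsSm act σ ψ = ψ := by
    intro σ hσ hσζ
    obtain ⟨τ, hτ, hστ⟩ := hlev σ hσ hσζ
    exact ffdv_fix_of_level hact hEact hEψ hψI hτ hστ
  obtain ⟨r, s, c, j₀, hsD, hsj₀, hcover, hinj, hcW, hlag⟩ := hVdm n ζ hn hζ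
  -- the conjugates of `ζ` are roots of unity, hence in `A`
  have hroot : ∀ j, (s j ζ) ^ n = 1 := fun j => by rw [← map_pow, hζ.pow_eq_one, map_one]
  have hrootA : ∀ j (k : ℕ), (s j ζ) ^ k ∈ A := fun j k => pow_mem (ffds_root_mem A hn0 (hroot j)) k
  -- the conjugates of `ψ`
  let ψs : Fin r → M → Qb := fun j => ffdsSm act (s j) ψ
  have hψs𝔅 : ∀ j, ψs j ∈ 𝔅 := fun j => hstab (s j) (hsD j) ψ hψ𝔅
  -- `δ · ψ_j = ψ_{j'}` if `δ (s_j ζ) = s_{j'} ζ`
  have hperm : ∀ δ : G, δ ∈ A.decompositionSubgroup ℚ → ∀ j j', δ (s j ζ) = s j' ζ →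
      ffdsSm act δ (ψs j) = ψs j' := by
    intro δ hδ j j' hjj'
    have h1 : (s j')⁻¹ * δ * s j ∈ A.decompositionSubgroup ℚ :=
      mul_mem (mul_mem (inv_mem (hsD j')) hδ) (hsD j)
    have h2 : ((s j')⁻¹ * δ * s j) ζ = ζ := by
      rw [AlgEquiv.mul_apply, AlgEquiv.mul_apply, hjj']
      exact (s j').symm_apply_apply ζ
    have h3 := hfix _ h1 h2
    have h4 : δ * s j = s j' * ((s j')⁻¹ * δ * s j) := by group
    change ffdsSm act δ (ffdsSm act (s j) ψ) = ffdsSm act (s j') ψ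
    rw [← ffdsSm_mul hact, h4, ffdsSm_mul hact, h3]
  -- the `D`-invariant functions `T_k`
  let T : Fin r → M → Qb := fun k => ∑ j, (fun _ : M => (s j ζ) ^ (k : ℕ)) * ψs j
  have hT𝔅 : ∀ k, T k ∈ 𝔅 := fun k =>
    Subalgebra.sum_mem _ fun j _ => 𝔅.mul_mem (ffds_const_mem 𝔅 (hrootA j k)) (hψs𝔅 j)
  have hTD : ∀ k, T k ∈ ffdsFix act (A.decompositionSubgroup ℚ : Set G) := by
    intro k δ hδ
    -- the permutation of the indices induced by `δ`
    have hπ : ∀ j, ∃ j', δ (s j ζ) = s j' ζ := by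
      intro j
      obtain ⟨j', hj'⟩ := hcover (δ * s j) (mul_mem hδ (hsD j))
      exact ⟨j', hj'⟩
    choose π hπ using hπ
    have hπinj : Function.Injective π := by
      intro j j' hjj'
      apply hinj
      apply δ.injective
      rw [hπ j, hπ j', hjj']
    have hπbij : Function.Bijective π := Finite.injective_iff_bijective.mp hπinj
    change ffdsSm act δ (∑ j, (fun _ : M => (s j ζ) ^ (k : ℕ)) * ψs j) =
      ∑ j, (fun _ : M => (s j ζ) ^ (k : ℕ)) * ψs j
    rw [map_sum]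
    rw [← Function.Bijective.sum_comp hπbij (fun j => (fun _ : M => (s j ζ) ^ (k : ℕ)) * ψs j)]
    refine Finset.sum_congr rfl fun j _ => ?_
    rw [map_mul, hperm δ hδ j (π j) (hπ j), ffdsSm_const, map_pow, hπ j]
  -- `ψ = ∑_k c_k • T_k`
  have hψ0 : ψs j₀ = ψ := hfix (s j₀) (hsD j₀) hsj₀
  have hsum : ψ = ∑ k, (⟨c k, (hcW k).1⟩ : A) • T k := by
    funext m
    rw [Finset.sum_apply]
    simp only [ffds_smul_apply]
    have h1 : ∀ k : Fin r, c k * T k m = ∑ j, (c k * (s j ζ) ^ (k : ℕ)) * ψs j m := by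
      intro k
      change c k * (∑ j, (fun _ : M => (s j ζ) ^ (k : ℕ)) * ψs j) m = _
      rw [Finset.sum_apply, Finset.mul_sum]
      refine Finset.sum_congr rfl fun j _ => ?_
      rw [Pi.mul_apply, mul_assoc]
    rw [Finset.sum_congr rfl fun k _ => h1 k, Finset.sum_comm]
    have h2 : ∀ j : Fin r, ∑ k, (c k * (s j ζ) ^ (k : ℕ)) * ψs j m =
        (if j = j₀ then 1 else 0) * ψs j m := by
      intro j
      rw [← Finset.sum_mul, hlag j]
    rw [Finset.sum_congr rfl fun j _ => h2 j]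
    simp only [ite_mul, one_mul, zero_mul, Finset.sum_ite_eq', Finset.mem_univ, if_true]
    rw [hψ0]
  rw [hsum]
  exact Submodule.sum_mem _ fun k _ =>
    Submodule.smul_mem _ _ (Submodule.subset_span ⟨hT𝔅 k, hTD k⟩)

end Fermat.Agent.FF
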