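import Fermat.Agent.FF.Desc.Adapter
import Fermat.Agent.FF.Desc.FinLevel
import Fermat.Agent.FF.Desc.Vdm
import Fermat.Agent.FF.Desc.VdmStep
import Fermat.Agent.FF.Desc.Crt
import Fermat.Agent.FF.Desc.DenseStep
import Fermat.Agent.FF.Desc.Final

/-!
# Program FF, leaf (A3)+(A4): compositum over the conjugates + descent from ONE place to `ℤ_(ℓ)`

`ffds_spec : FfDescentSpec2 ℓ` (the program manager's literal, `FF/Spec2.lean`).

Wiring (owner helper23):
* `fffl_level` (helper3, `Desc/FinLevel.lean`)  : `FfdsLevelSpec ℓ A`;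
* `ffdv_vdm`, `ffdv_step` (helper29, `Desc/Vdm.lean`, `Desc/VdmStep.lean`) : `FfdsVdmStep A M act`;
* `ffdc_crt` (helper7, `Desc/Crt.lean`)         : `FfdsCrtSpec ℓ A`;
* `ffdd_step` (helper9, `Desc/DenseStep.lean`)  : `FfdsDenseStep ℓ A M act`;
* `ffdn_final` (helper4, `Desc/Final.lean`)     : `FfdsFinalStep ℓ A M act`;
* `ffds_spec_of_steps` (helper23, `Desc/Main.lean`, `Desc/Adapter.lean`).
-/

set_option autoImplicit false

namespace Fermat.Agent.FF

/-- **(A3)+(A4)**: (CORE-OUT) at ONE place over `ℓ` gives a global order over `ℤ_(ℓ)`. -/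
theorem ffds_spec (ℓ : ℕ) [hℓ : Fact ℓ.Prime] : FfDescentSpec2 ℓ :=
  ffds_spec_of_steps ℓ
    (fun A hA _ _ _ _ hact =>
      ffdv_step hℓ.out A hA hact (fffl_level hℓ.out A hA) (ffdv_vdm hℓ.out A hA))
    (fun A hA _ _ _ _ hact => ffdd_step hℓ.out A hA hact (ffdc_crt hℓ.out A hA))
    (fun A hA _ _ _ _ hact => ffdn_final A hA hact)

end Fermat.Agent.FF
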